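import Fermat.Agent.GAL.Model
import Fermat.Agent.S24.PlaceDedekind

set_option autoImplicit false
set_option linter.style.haveILetI false

/-!
# GAL-HECKE : the places above a given place of a finite separable extension (task H4)
-/

namespace Fermat.Agent.GAL.Hecke

open AlgebraicCurve IsDedekindDomain

section Key

universe u v w

variable {K : Type u} {F : Type v} {F' : Type w} [Field K] [Field F] [Field F'] [Algebra K F]
  [Algebra K F']

/-- elements integral over the valuation ring of `P` lie in the valuation ring of every place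
above `P`. -/
theorem placesAbove_mem_of_isIntegral [Algebra F F'] [IsScalarTower K F F']
    [Algebra.IsIntegral F F'] (P : Place K F)
    (Q : Place K F') (hQ : Q.restrict F = P) {x : F'} (hx : IsIntegral P.toValuationSubring x) :
    x ∈ Q.toValuationSubring := by
  have hv : ∀ a : P.toValuationSubring,
      algebraMap P.toValuationSubring F' a ∈ Q.toValuationSubring.toSubring := by
    intro a
    have h1 : (a : F) ∈ (Q.restrict F).toValuationSubring := by rw [hQ]; exact a.2
    exact (Place.mem_restrict_iff Q).1 h1
  letI : Algebra P.toValuationSubring Q.toValuationSubring :=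
    ((algebraMap P.toValuationSubring F').codRestrict Q.toValuationSubring.toSubring hv).toAlgebra
  haveI : IsScalarTower P.toValuationSubring Q.toValuationSubring F' :=
    IsScalarTower.of_algebraMap_eq fun f => rfl
  have hx' : IsIntegral Q.toValuationSubring x := hx.tower_top
  obtain ⟨y, hy⟩ := IsIntegrallyClosed.isIntegral_iff.mp hx'
  rw [← hy]
  exact y.2

/-- The finitely many places above `P`, with "uniformisers" separating them. -/
theorem placesAbove_key [Algebra F F'] [IsScalarTower K F F'] [FiniteDimensional F F']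
    [Algebra.IsSeparable F F'] (P : Place K F) :
    ∃ (ι : Type w) (_ : Fintype ι) (_ : DecidableEq ι) (pl : ι → Place K F') (ϖ : ι → F'),
      (∀ i, ϖ i ≠ 0) ∧ (∀ i j, (pl i).ord (ϖ j) = if j = i then 1 else 0) ∧
      (∀ Q : Place K F', Q.restrict F = P → ∃ i, pl i = Q) ∧
      (∀ x : F', (∀ i, x ∈ (pl i).toValuationSubring) → IsIntegral P.toValuationSubring x) ∧
      (∀ i, (pl i).restrict F = P) := by
  classical
  let A := P.toValuationSubring
  let B := integralClosure A F'
  haveI : IsDedekindDomain B := integralClosure.isDedekindDomain A F F'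
  haveI : IsFractionRing B F' := integralClosure.isFractionRing_of_finite_extension F F'
  letI : Algebra K B := ((algebraMap A B).comp (algebraMap K A)).toAlgebra
  haveI : IsScalarTower K B F' := IsScalarTower.of_algebraMap_eq fun a => by
    change algebraMap K F' a = algebraMap A F' (algebraMap K A a)
    rw [IsScalarTower.algebraMap_apply A F F', IsScalarTower.algebraMap_apply K F F']
    rfl
  -- finiteness of the spectrum
  obtain ⟨p, hp⟩ := IsDiscreteValuationRing.exists_irreducible A
  have hinj : Function.Injective (algebraMap A B) := by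
    intro a b hab
    have h1 : algebraMap A F' a = algebraMap A F' b := by
      rw [IsScalarTower.algebraMap_apply A B F', hab, ← IsScalarTower.algebraMap_apply A B F']
    rw [IsScalarTower.algebraMap_apply A F F', IsScalarTower.algebraMap_apply A F F'] at h1
    exact Subtype.ext ((algebraMap F F').injective h1)
  have hpB : algebraMap A B p ≠ 0 := by
    rw [Ne, map_eq_zero_iff _ hinj]
    exact hp.ne_zero
  have hI : Ideal.span {algebraMap A B p} ≠ 0 := by
    rw [Ne, Ideal.zero_eq_bot, Ideal.span_singleton_eq_bot]
    exact hpB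
  have hall : ∀ w : HeightOneSpectrum B, w.asIdeal ∣ Ideal.span {algebraMap A B p} := by
    intro w
    rw [Ideal.dvd_span_singleton]
    have h1 : w.asIdeal.comap (algebraMap A B) ≠ ⊥ := mt Ideal.eq_bot_of_comap_eq_bot w.ne_bot
    have h2 : (w.asIdeal.comap (algebraMap A B)).IsPrime := Ideal.comap_isPrime _ _
    have h3 : w.asIdeal.comap (algebraMap A B) = IsLocalRing.maximalIdeal A :=
      IsLocalRing.eq_maximalIdeal (h2.isMaximal h1)
    have h4 : p ∈ w.asIdeal.comap (algebraMap A B) := by
      rw [h3, IsLocalRing.mem_maximalIdeal, mem_nonunits_iff]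
      exact hp.not_isUnit
    exact h4
  have hfin : Finite (HeightOneSpectrum B) := by
    have h1 := Ideal.finite_factors hI
    have h2 : {w : HeightOneSpectrum B | w.asIdeal ∣ Ideal.span {algebraMap A B p}} = Set.univ :=
      Set.eq_univ_of_forall hall
    rw [h2] at h1
    exact Set.finite_univ_iff.mp h1
  haveI : IsPrincipalIdealRing B := by
    apply IsPrincipalIdealRing.of_finite_maximals
    refine Set.Finite.subset ((Set.finite_range (fun w : HeightOneSpectrum B => w.asIdeal)).union
      (Set.finite_singleton ⊥)) ?_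
    intro I hI
    by_cases hb : I = ⊥
    · exact Or.inr hb
    · exact Or.inl ⟨⟨I, Ideal.IsMaximal.isPrime hI, hb⟩, rfl⟩
  let g : HeightOneSpectrum B → B := fun w => Submodule.IsPrincipal.generator w.asIdeal
  have hg : ∀ w : HeightOneSpectrum B, w.asIdeal = Ideal.span {g w} := fun w =>
    (Ideal.span_singleton_generator w.asIdeal).symm
  have hg0 : ∀ w : HeightOneSpectrum B, g w ≠ 0 := by
    intro w h
    apply w.ne_bot
    rw [hg w, h]
    simp
  have hrestr : ∀ w : HeightOneSpectrum B,
      (Place.ofHeightOneSpectrum (K := K) (F := F') w).restrict F = P := by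
    intro w
    apply Place.ext
    symm
    refine ValuationSubring.eq_of_le_of_ne_top _ ?_
      ((Place.ofHeightOneSpectrum (K := K) (F := F') w).restrict F).ne_top'
    intro a ha
    rw [Place.mem_restrict_iff]
    have := Fermat.Agent.S24.algebraMap_mem_ofHeightOneSpectrum (K := K) (F := F') w
      (algebraMap A B ⟨a, ha⟩)
    rw [← IsScalarTower.algebraMap_apply A B F', IsScalarTower.algebraMap_apply A F F'] at this
    exact this
  refine ⟨HeightOneSpectrum B, Fintype.ofFinite _, inferInstance,
    fun w => Place.ofHeightOneSpectrum (K := K) (F := F') w, fun w => algebraMap B F' (g w),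
    ?_, ?_, ?_, ?_, hrestr⟩
  · intro w
    rw [Ne, map_eq_zero_iff _ (IsFractionRing.injective B F')]
    exact hg0 w
  · intro w w'
    rw [Fermat.Agent.S24.ofHeightOneSpectrum_ord, HeightOneSpectrum.valuation_of_algebraMap]
    split_ifs with h
    · rw [h, w.intValuation_singleton (hg0 w) (hg w)]
      simp
    · have hnot : g w' ∉ w.asIdeal := by
        intro hmem
        apply h
        have hle : w'.asIdeal ≤ w.asIdeal := by
          rw [hg w', Ideal.span_singleton_le_iff_mem]
          exact hmem
        exact HeightOneSpectrum.ext (w'.isMaximal.eq_of_le w.isPrime.ne_top hle)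
      rw [HeightOneSpectrum.intValuation_eq_one_iff.mpr hnot]
      simp
  · intro Q hQ
    have hv : ∀ b : B, algebraMap B F' b ∈ Q.toValuationSubring := fun b =>
      placesAbove_mem_of_isIntegral P Q hQ b.2
    exact ⟨Fermat.Agent.S24.centre Q hv, Fermat.Agent.S24.ofHeightOneSpectrum_centre Q hv⟩
  · intro x hx
    have hval : ∀ w : HeightOneSpectrum B, w.valuation F' x ≤ 1 := by
      intro w
      have := hx w
      rw [Place.ofHeightOneSpectrum_toValuationSubring, Valuation.mem_valuationSubring_iff] at this
      exact this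
    obtain ⟨b, hb⟩ := HeightOneSpectrum.mem_integers_of_valuation_le_one F' x hval
    rw [← hb]
    exact b.2

end Key

variable {K F F' : Type*} [Field K] [Field F] [Field F'] [Algebra K F] [Algebra K F']

/-- order of a finite product of integer powers. -/
theorem placesAbove_ord_prod_zpow {ι : Type*} (Q : Place K F') (s : Finset ι) (f : ι → F')
    (hf : ∀ i, f i ≠ 0) (n : ι → ℤ) :
    Q.ord (∏ i ∈ s, f i ^ n i) = ∑ i ∈ s, n i * Q.ord (f i) := by
  classical
  induction s using Finset.induction_on with
  | empty => simp
  | insert a s ha ih =>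
    rw [Finset.prod_insert ha, Finset.sum_insert ha,
      Q.ord_mul (zpow_ne_zero _ (hf a))
        (Finset.prod_ne_zero_iff.mpr fun i _ => zpow_ne_zero _ (hf i)), ih, Q.ord_zpow]

/-- A unit at all places above `P` has norm a unit at `P`. -/
theorem ord_norm_eq_zero [Algebra F F'] [IsScalarTower K F F'] [FiniteDimensional F F']
    [Algebra.IsSeparable F F'] (P : Place K F) (s : F') (hs : s ≠ 0)
    (h : ∀ Q : Place K F', Q.restrict F = P → Q.ord s = 0) :
    P.ord (Algebra.norm F s) = 0 := by
  obtain ⟨ι, _, _, pl, ϖ, -, -, -, hint, hrestr⟩ := placesAbove_key (F' := F') P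
  have h1 : IsIntegral P.toValuationSubring s := hint s fun i =>
    Fermat.Agent.S24.mem_of_ord_nonneg _ hs (by rw [h _ (hrestr i)])
  have h2 : IsIntegral P.toValuationSubring s⁻¹ := hint s⁻¹ fun i =>
    Fermat.Agent.S24.mem_of_ord_nonneg _ (inv_ne_zero hs)
      (by rw [Place.ord_inv, h _ (hrestr i), neg_zero])
  have key : ∀ x : F', IsIntegral P.toValuationSubring x → 0 ≤ P.ord (Algebra.norm F x) := by
    intro x hx
    have h3 : IsIntegral P.toValuationSubring (Algebra.norm F x) := Algebra.isIntegral_norm F hx
    obtain ⟨y, hy⟩ := IsIntegrallyClosed.isIntegral_iff.mp h3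
    rw [← hy]
    exact Fermat.Agent.S24.ord_nonneg_of_mem P y.2
  have h4 := key s h1
  have h5 := key s⁻¹ h2
  have h6 : Algebra.norm F s⁻¹ = (Algebra.norm F s)⁻¹ := by
    apply eq_inv_of_mul_eq_one_left
    rw [← map_mul, inv_mul_cancel₀ hs, map_one]
  rw [h6, P.ord_inv] at h5
  omega

/-- Approximation: prescribed orders at the places above `P`. -/
theorem exists_ord_eq_above [Algebra F F'] [IsScalarTower K F F'] [FiniteDimensional F F']
    [Algebra.IsSeparable F F'] (P : Place K F) (a : Place K F' → ℤ) :
    ∃ t : F', t ≠ 0 ∧ ∀ Q : Place K F', Q.restrict F = P → Q.ord t = a Q := by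
  obtain ⟨ι, _, _, pl, ϖ, hϖ0, hord, hsurj, -, -⟩ := placesAbove_key (F' := F') P
  refine ⟨∏ i, ϖ i ^ a (pl i), Finset.prod_ne_zero_iff.mpr fun i _ => zpow_ne_zero _ (hϖ0 i),
    fun Q hQ => ?_⟩
  obtain ⟨i₀, rfl⟩ := hsurj Q hQ
  rw [placesAbove_ord_prod_zpow _ _ _ hϖ0]
  simp only [hord]
  simp

end Fermat.Agent.GAL.Hecke
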