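import Mathlib
import Fermat.Prelude.Def_ModularCurve_HeckeOperator
import Fermat.Agent.S24.EmbedFN

set_option autoImplicit false
set_option linter.unusedSectionVars false

/-!
# The Atkin-Lehner automorphism `w_ℓ` of the function field of `X₀(M ℓ)`

For a prime `ℓ ∤ M` we construct a `Kbar`-algebra automorphism `w` of
`FN (M * ℓ) = Kbar(j(q^d) : d ∣ M ℓ)` with `w (j(q^d)) = j(q^(d ℓ))`, `w (j(q^(d ℓ))) = j(q^d)`
(`d ∣ M`), i.e. `w ∘ α = β`, `w ∘ β = α` for the two degeneracy maps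
`α = heckeAlphaBar`, `β = heckeBetaBar : FN M → FN (M ℓ)`.
Analytically `w` is the composition with `W τ = (ℓ u τ - v) / (M ℓ τ + ℓ)`, `u ℓ + v M = 1`.
-/

open UpperHalfPlane Complex ModularCurve CongruenceSubgroup
open scoped Manifold MatrixGroups

noncomputable section

namespace Fermat.Agent.GAL.AtkinLehner

open Fermat.Agent.S24 Fermat.Agent.S24.FNAdjoin Fermat.Agent.S24.JLocal Fermat.Agent.S24.EmbedFN

/-- `τ / ℓ` as a point of the upper half plane. -/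
def divH (ℓ : ℕ) [NeZero ℓ] (τ : ℍ) : ℍ :=
  ⟨(τ : ℂ) / ℓ, by
    have hd : (0 : ℝ) < ℓ := by exact_mod_cast Nat.pos_of_ne_zero (NeZero.ne ℓ)
    have : ((τ : ℂ) / ℓ).im = τ.im / ℓ := by
      rw [Complex.div_natCast_im]; rfl
    rw [this]; exact div_pos τ.im_pos hd⟩

@[simp] theorem coe_divH (ℓ : ℕ) [NeZero ℓ] (τ : ℍ) : ((divH ℓ τ : ℍ) : ℂ) = τ / ℓ := rfl

theorem natCast_ne_zero' (ℓ : ℕ) [NeZero ℓ] : (ℓ : ℂ) ≠ 0 := Nat.cast_ne_zero.mpr (NeZero.ne ℓ)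

theorem divH_mulH (ℓ : ℕ) [NeZero ℓ] (τ : ℍ) : divH ℓ (mulH ℓ τ) = τ := by
  ext
  rw [coe_divH, coe_mulH, mul_div_cancel_left₀ _ (natCast_ne_zero' ℓ)]

theorem mulH_divH (ℓ : ℕ) [NeZero ℓ] (τ : ℍ) : mulH ℓ (divH ℓ τ) = τ := by
  ext
  rw [coe_mulH, coe_divH, mul_div_cancel₀ _ (natCast_ne_zero' ℓ)]

theorem mulH_mul_divH (d ℓ : ℕ) [NeZero d] [NeZero ℓ] (τ : ℍ) :
    mulH (d * ℓ) (divH ℓ τ) = mulH d τ := by
  ext
  rw [coe_mulH, coe_divH, coe_mulH]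
  have := natCast_ne_zero' ℓ
  push_cast
  field_simp

/-- Induction principle for the elements of the subalgebra `A N`. -/
theorem A_induction' {N : ℕ} {P : A N → Prop}
    (hj : ∀ (d : ℕ) [NeZero d] (hd : d ∣ N), P ⟨FNAdjoin.jd N d hd, jd_mem_A N d hd⟩)
    (hc : ∀ c : Kbar, P (algebraMap Kbar (A N) c))
    (hadd : ∀ x y, P x → P y → P (x + y)) (hmul : ∀ x y, P x → P y → P (x * y)) (x : A N) :
    P x := by
  have htop : x ∈ Algebra.adjoin Kbar ((↑) ⁻¹' gensF N : Set (A N)) := by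
    have h : Algebra.adjoin Kbar ((↑) ⁻¹' gensF N : Set (A N)) = ⊤ :=
      Algebra.adjoin_adjoin_coe_preimage (R := Kbar) (s := gensF N)
    rw [h]
    trivial
  induction htop using Algebra.adjoin_induction with
  | mem y hy =>
      obtain ⟨d, hd, hdN, hy'⟩ := hy
      have e : y = ⟨FNAdjoin.jd N d hdN, jd_mem_A N d hdN⟩ := Subtype.ext hy'
      rw [e]
      exact hj d hdN
  | algebraMap c => exact hc c
  | add x y _ _ hx' hy' => exact hadd _ _ hx' hy'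
  | mul x y _ _ hx' hy' => exact hmul _ _ hx' hy'

section W

variable {M ℓ : ℕ} [NeZero M] [NeZero ℓ] {u v : ℤ} (huv : u * ℓ + v * M = 1)

/-- The matrix `[[ℓ u, -v], [M, 1]] ∈ Γ₀(M)`. -/
def gam : SL(2, ℤ) :=
  ⟨!![(ℓ : ℤ) * u, -v; (M : ℤ), 1], by rw [Matrix.det_fin_two_of]; linear_combination huv⟩

theorem gam_mem : gam huv ∈ Gamma0 M := by
  rw [Gamma0_mem]
  simp [gam]

/-- The Atkin-Lehner operator on the upper half plane: `W τ = (ℓ u τ - v) / (ℓ (M τ + 1))`. -/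
def Wact (τ : ℍ) : ℍ := divH ℓ (gam huv • τ)

theorem Wact_surjective : Function.Surjective (Wact huv) := by
  intro τ
  refine ⟨(gam huv)⁻¹ • mulH ℓ τ, ?_⟩
  rw [Wact, smul_inv_smul, divH_mulH]

theorem kleinJ_mulH_mul_Wact (d : ℕ) [NeZero d] (hd : d ∣ M) (τ : ℍ) :
    kleinJ (mulH (d * ℓ) (Wact huv τ)) = kleinJ (mulH d τ) := by
  rw [Wact, mulH_mul_divH, kleinJ_mulH_smul_of_mem_Gamma0 d hd _ (gam_mem huv)]

theorem kleinJ_mulH_Wact (d : ℕ) [NeZero d] (hd : d ∣ M) (τ : ℍ) :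
    kleinJ (mulH d (Wact huv τ)) = kleinJ (mulH (d * ℓ) τ) := by
  obtain ⟨e, he⟩ := hd
  let γ' : SL(2, ℤ) := ⟨!![u, -(d : ℤ) * v; (e : ℤ), (ℓ : ℤ)], by
    rw [Matrix.det_fin_two_of]
    have : (M : ℤ) = d * e := by exact_mod_cast he
    rw [this] at huv
    linear_combination huv⟩
  have key : mulH d (Wact huv τ) = γ' • mulH (d * ℓ) τ := by
    ext
    rw [coe_mulH, Wact, coe_divH, coe_specialLinearGroup_apply, coe_specialLinearGroup_apply,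
      coe_mulH]
    simp only [algebraMap_int_eq, eq_intCast, ofReal_intCast]
    have e00 : γ' 0 0 = u := rfl
    have e01 : γ' 0 1 = -(d : ℤ) * v := rfl
    have e10 : γ' 1 0 = e := rfl
    have e11 : γ' 1 1 = ℓ := rfl
    have g00 : gam huv 0 0 = (ℓ : ℤ) * u := rfl
    have g01 : gam huv 0 1 = -v := rfl
    have g10 : gam huv 1 0 = M := rfl
    have g11 : gam huv 1 1 = 1 := rfl
    rw [e00, e01, e10, e11, g00, g01, g10, g11, he]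
    have hℓ := natCast_ne_zero' ℓ
    have hden : ((d * e : ℕ) : ℂ) * τ + 1 ≠ 0 := by
      intro h
      have him : (((d * e : ℕ) : ℂ) * τ + 1).im = ((d * e : ℕ) : ℝ) * τ.im := by
        simp
      rw [h, Complex.zero_im] at him
      have hM : ((d * e : ℕ) : ℝ) ≠ 0 := by
        rw [← he]
        exact Nat.cast_ne_zero.mpr (NeZero.ne M)
      exact (mul_ne_zero hM τ.im_pos.ne') him.symm
    push_cast at hden ⊢
    have hden2 : (e : ℂ) * ((d : ℂ) * ℓ * τ) + ℓ ≠ 0 := by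
      have : (e : ℂ) * ((d : ℂ) * ℓ * τ) + ℓ = ℓ * ((d : ℂ) * e * τ + 1) := by ring
      rw [this]
      exact mul_ne_zero hℓ hden
    field_simp
  rw [key, kleinJ_smul]

/-- Every divisor of `M ℓ` is `d` or `d ℓ` with `d ∣ M`. -/
theorem dvd_cases (hℓ : ℓ.Prime) {d : ℕ} (hd : d ∣ M * ℓ) :
    d ∣ M ∨ ∃ d' : ℕ, d' ∣ M ∧ d = d' * ℓ := by
  by_cases h : ℓ ∣ d
  · obtain ⟨d', rfl⟩ := h
    right
    refine ⟨d', ?_, mul_comm _ _⟩
    rw [mul_comm M ℓ] at hd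
    exact Nat.dvd_of_mul_dvd_mul_left hℓ.pos hd
  · left
    exact (Nat.Coprime.dvd_of_dvd_mul_right
      ((Nat.Coprime.symm ((Nat.Prime.coprime_iff_not_dvd hℓ).mpr h))) hd)

theorem exists_wA (hℓ : ℓ.Prime) (x : A (M * ℓ)) :
    ∃ y : A (M * ℓ), ∀ τ : ℍ, PsiA (M * ℓ) y τ = PsiA (M * ℓ) x (Wact huv τ) := by
  refine A_induction' (P := fun x => ∃ y : A (M * ℓ), ∀ τ : ℍ,
    PsiA (M * ℓ) y τ = PsiA (M * ℓ) x (Wact huv τ)) ?_ ?_ ?_ ?_ x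
  · intro d _ hd
    rcases dvd_cases hℓ hd with h | ⟨d', h, rfl⟩
    · refine ⟨⟨FNAdjoin.jd (M * ℓ) (d * ℓ) (Nat.mul_dvd_mul_right h ℓ), jd_mem_A _ _ _⟩, fun τ => ?_⟩
      rw [PsiA_jd, PsiA_jd, kleinJ_mulH_Wact huv d h]
    · have : NeZero d' := ⟨fun h0 => by
        subst h0
        exact NeZero.ne (0 * ℓ) (zero_mul ℓ)⟩
      refine ⟨⟨FNAdjoin.jd (M * ℓ) d' (h.trans (dvd_mul_right M ℓ)), jd_mem_A _ _ _⟩, fun τ => ?_⟩
      rw [PsiA_jd, PsiA_jd, kleinJ_mulH_mul_Wact huv d' h]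
  · intro c
    exact ⟨algebraMap Kbar _ c, fun τ => by rw [PsiA_algebraMap, PsiA_algebraMap]⟩
  · rintro x y ⟨x', hx⟩ ⟨y', hy⟩
    exact ⟨x' + y', fun τ => by rw [map_add, map_add, Pi.add_apply, Pi.add_apply, hx, hy]⟩
  · rintro x y ⟨x', hx⟩ ⟨y', hy⟩
    exact ⟨x' * y', fun τ => by rw [map_mul, map_mul, Pi.mul_apply, Pi.mul_apply, hx, hy]⟩

/-- The Atkin-Lehner operator on `A (M ℓ) = Kbar[j(q^d)]`, as a function. -/
def wFun (hℓ : ℓ.Prime) (x : A (M * ℓ)) : A (M * ℓ) := (exists_wA huv hℓ x).choose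

theorem PsiA_wFun (hℓ : ℓ.Prime) (x : A (M * ℓ)) (τ : ℍ) :
    PsiA (M * ℓ) (wFun huv hℓ x) τ = PsiA (M * ℓ) x (Wact huv τ) :=
  (exists_wA huv hℓ x).choose_spec τ

theorem wFun_eq (hℓ : ℓ.Prime) {x y : A (M * ℓ)}
    (h : ∀ τ : ℍ, PsiA (M * ℓ) y τ = PsiA (M * ℓ) x (Wact huv τ)) : wFun huv hℓ x = y := by
  apply PsiA_injective
  funext τ
  rw [PsiA_wFun, h]

/-- The Atkin-Lehner operator on `A (M ℓ) = Kbar[j(q^d)]`. -/
def wA (hℓ : ℓ.Prime) : A (M * ℓ) →ₐ[Kbar] A (M * ℓ) where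
  toFun := wFun huv hℓ
  map_one' := wFun_eq huv hℓ fun τ => by rw [map_one]; rfl
  map_mul' x y := wFun_eq huv hℓ fun τ => by
    rw [map_mul, map_mul, Pi.mul_apply, Pi.mul_apply, PsiA_wFun, PsiA_wFun]
  map_zero' := wFun_eq huv hℓ fun τ => by rw [map_zero]; rfl
  map_add' x y := wFun_eq huv hℓ fun τ => by
    rw [map_add, map_add, Pi.add_apply, Pi.add_apply, PsiA_wFun, PsiA_wFun]
  commutes' c := wFun_eq huv hℓ fun τ => by rw [PsiA_algebraMap, PsiA_algebraMap]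

theorem PsiA_wA (hℓ : ℓ.Prime) (x : A (M * ℓ)) (τ : ℍ) :
    PsiA (M * ℓ) (wA huv hℓ x) τ = PsiA (M * ℓ) x (Wact huv τ) :=
  PsiA_wFun huv hℓ x τ

theorem wA_injective (hℓ : ℓ.Prime) : Function.Injective (wA huv hℓ) := by
  intro x y h
  apply PsiA_injective
  funext τ
  obtain ⟨τ', rfl⟩ := Wact_surjective huv τ
  rw [← PsiA_wA huv hℓ, ← PsiA_wA huv hℓ, h]

theorem wA_jd (hℓ : ℓ.Prime) (d : ℕ) [NeZero d] (hd : d ∣ M) :
    wA huv hℓ ⟨FNAdjoin.jd (M * ℓ) d (hd.trans (dvd_mul_right M ℓ)), jd_mem_A _ _ _⟩ =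
      ⟨FNAdjoin.jd (M * ℓ) (d * ℓ) (Nat.mul_dvd_mul_right hd ℓ), jd_mem_A _ _ _⟩ :=
  wFun_eq huv hℓ fun τ => by rw [PsiA_jd, PsiA_jd, kleinJ_mulH_Wact huv d hd]

theorem wA_jd_mul (hℓ : ℓ.Prime) (d : ℕ) [NeZero d] (hd : d ∣ M) :
    wA huv hℓ ⟨FNAdjoin.jd (M * ℓ) (d * ℓ) (Nat.mul_dvd_mul_right hd ℓ), jd_mem_A _ _ _⟩ =
      ⟨FNAdjoin.jd (M * ℓ) d (hd.trans (dvd_mul_right M ℓ)), jd_mem_A _ _ _⟩ :=
  wFun_eq huv hℓ fun τ => by rw [PsiA_jd, PsiA_jd, kleinJ_mulH_mul_Wact huv d hd]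

/-- The Atkin-Lehner endomorphism of the function field `FN (M ℓ)`. -/
def w (hℓ : ℓ.Prime) : FN (M * ℓ) →ₐ[Kbar] FN (M * ℓ) :=
  IsFractionRing.liftAlgHom (A := A (M * ℓ)) (K := FN (M * ℓ))
    (g := (A (M * ℓ)).val.comp (wA huv hℓ))
    (Subtype.val_injective.comp (wA_injective huv hℓ))

theorem w_coe (hℓ : ℓ.Prime) (x : A (M * ℓ)) : w huv hℓ (x : FN (M * ℓ)) = wA huv hℓ x :=
  IsFractionRing.liftAlgHom_apply _ _ |>.trans (IsFractionRing.lift_algebraMap _ x)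

theorem w_jd (hℓ : ℓ.Prime) (d : ℕ) [NeZero d] (hd : d ∣ M) :
    w huv hℓ (FNAdjoin.jd (M * ℓ) d (hd.trans (dvd_mul_right M ℓ))) =
      FNAdjoin.jd (M * ℓ) (d * ℓ) (Nat.mul_dvd_mul_right hd ℓ) := by
  have h := w_coe huv hℓ ⟨FNAdjoin.jd (M * ℓ) d (hd.trans (dvd_mul_right M ℓ)), jd_mem_A _ _ _⟩
  rw [wA_jd huv hℓ d hd] at h
  exact h

theorem w_jd_mul (hℓ : ℓ.Prime) (d : ℕ) [NeZero d] (hd : d ∣ M) :
    w huv hℓ (FNAdjoin.jd (M * ℓ) (d * ℓ) (Nat.mul_dvd_mul_right hd ℓ)) =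
      FNAdjoin.jd (M * ℓ) d (hd.trans (dvd_mul_right M ℓ)) := by
  have h := w_coe huv hℓ ⟨FNAdjoin.jd (M * ℓ) (d * ℓ) (Nat.mul_dvd_mul_right hd ℓ), jd_mem_A _ _ _⟩
  rw [wA_jd_mul huv hℓ d hd] at h
  exact h

theorem alpha_jd (d : ℕ) [NeZero d] (hd : d ∣ M) :
    heckeAlphaBar Kbar M ℓ (FNAdjoin.jd M d hd) =
      FNAdjoin.jd (M * ℓ) d (hd.trans (dvd_mul_right M ℓ)) :=
  Subtype.ext rfl

theorem beta_jd (d : ℕ) [NeZero d] (hd : d ∣ M) :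
    heckeBetaBar Kbar M ℓ (FNAdjoin.jd M d hd) =
      FNAdjoin.jd (M * ℓ) (d * ℓ) (Nat.mul_dvd_mul_right hd ℓ) := by
  apply Subtype.ext
  rw [coe_heckeBetaBar, coe_jd', coe_jd', qExpand_qExpand]
  exact qExpand_congr (mul_comm ℓ d) _

theorem w_comp_alpha (hℓ : ℓ.Prime) :
    (w huv hℓ).comp (heckeAlphaBar Kbar M ℓ) = heckeBetaBar Kbar M ℓ := by
  apply AlgHom.coe_ringHom_injective
  refine ringHom_ext (fun c => ?_) (fun d _ hd => ?_)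
  · simp
  · show w huv hℓ (heckeAlphaBar Kbar M ℓ _) = heckeBetaBar Kbar M ℓ _
    rw [alpha_jd, beta_jd, w_jd huv hℓ d hd]

theorem w_comp_beta (hℓ : ℓ.Prime) :
    (w huv hℓ).comp (heckeBetaBar Kbar M ℓ) = heckeAlphaBar Kbar M ℓ := by
  apply AlgHom.coe_ringHom_injective
  refine ringHom_ext (fun c => ?_) (fun d _ hd => ?_)
  · simp
  · show w huv hℓ (heckeBetaBar Kbar M ℓ _) = heckeAlphaBar Kbar M ℓ _
    rw [alpha_jd, beta_jd, w_jd_mul huv hℓ d hd]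

theorem w_comp_w (hℓ : ℓ.Prime) : (w huv hℓ).comp (w huv hℓ) = AlgHom.id Kbar _ := by
  apply AlgHom.coe_ringHom_injective
  refine ringHom_ext (fun c => ?_) (fun d _ hd => ?_)
  · simp
  · show w huv hℓ (w huv hℓ _) = _
    rcases dvd_cases hℓ hd with h | ⟨d', h, rfl⟩
    · rw [w_jd huv hℓ d h, w_jd_mul huv hℓ d h]
      rfl
    · have : NeZero d' := ⟨fun h0 => by
        subst h0
        exact NeZero.ne (0 * ℓ) (zero_mul ℓ)⟩
      rw [w_jd_mul huv hℓ d' h, w_jd huv hℓ d' h]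
      rfl

end W

/-- **Atkin-Lehner.** For a prime `ℓ ∤ M` there is an involution `w` of the function field of
`X₀(M ℓ)` exchanging the two degeneracy maps. -/
theorem exists_atkinLehner (M ℓ : ℕ) [NeZero M] [NeZero ℓ] (hℓ : ℓ.Prime) (hM : ¬ ℓ ∣ M) :
    ∃ w : FN (M * ℓ) →ₐ[Kbar] FN (M * ℓ),
      w.comp (heckeAlphaBar Kbar M ℓ) = heckeBetaBar Kbar M ℓ ∧
      w.comp (heckeBetaBar Kbar M ℓ) = heckeAlphaBar Kbar M ℓ ∧
      w.comp w = AlgHom.id Kbar _ := by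
  have hcop : IsCoprime (ℓ : ℤ) (M : ℤ) :=
    Nat.isCoprime_iff_coprime.mpr ((Nat.Prime.coprime_iff_not_dvd hℓ).mpr hM)
  obtain ⟨u, v, huv⟩ := hcop
  exact ⟨w huv hℓ, w_comp_alpha huv hℓ, w_comp_beta huv hℓ, w_comp_w huv hℓ⟩

end Fermat.Agent.GAL.AtkinLehner
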