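import Mathlib
import Fermat.Prelude.Def_ModularCurve_HeckeOperator
import Fermat.Agent.S24.Degree
import Fermat.Agent.S24.EmbedFN
import Fermat.Agent.S24.Hermite
import Fermat.Agent.Lib.Gamma0Count.Index

set_option autoImplicit false
set_option linter.style.haveILetI false

/-!
# The degree of `α : FN M → FN (M ℓ)` is `ℓ + 1`
-/

open ModularCurve AlgebraicCurve IntermediateField
open scoped MatrixGroups

noncomputable section

namespace Fermat.Agent.GAL.DegreeAlpha

open Fermat.Agent.S24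

/-- `[FN N : Kbar(j)] = ψ(N)`. -/
theorem finrank_jF (N : ℕ) [NeZero N] :
    Module.finrank Kbar⟮jF N⟯ (FN N) = dedekindPsi N := by
  obtain ⟨fam0⟩ := EmbedFN.f0 N (fun g h => mem_Gamma0_of_kleinJ_mulH_smul_eq g h)
  rw [finrank_jF_of_family N fam0, Fermat.Agent.Lib.Gamma0Count.card_coset_eq]

theorem dedekindPsi_pos (N : ℕ) [NeZero N] : 0 < dedekindPsi N := by
  have := finiteDimensional_jF N
  rw [← finrank_jF N]
  exact Module.finrank_pos

/-- Tower law along an algebra homomorphism. -/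
theorem finrank_tower {k F F' : Type*} [Field k] [Field F] [Field F'] [Algebra k F] [Algebra k F']
    (φ : F →ₐ[k] F') (x : F) :
    Module.finrank k⟮x⟯ F * @Module.finrank F F' _ _ (algebraAlong φ).toModule =
      Module.finrank k⟮φ x⟯ F' := by
  letI := algebraAlong φ
  letI alg0 : Algebra k⟮x⟯ F' :=
    ((algebraMap F F').comp (algebraMap k⟮x⟯ F)).toAlgebra
  haveI : IsScalarTower k⟮x⟯ F F' :=
    IsScalarTower.of_algebraMap_eq (fun _ => rfl)
  have h1 := Module.finrank_mul_finrank k⟮x⟯ F F'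
  have hmap : (k⟮x⟯).map φ = k⟮φ x⟯ := by
    rw [IntermediateField.adjoin_map, Set.image_singleton]
  let e : k⟮x⟯ ≃+* k⟮φ x⟯ :=
    ((IntermediateField.equivMap k⟮x⟯ φ).trans (IntermediateField.equivOfEq hmap)).toRingEquiv
  have h2 : Module.finrank k⟮x⟯ F' = Module.finrank k⟮φ x⟯ F' := by
    refine Algebra.finrank_eq_of_equiv_equiv e (RingEquiv.refl _) ?_
    ext x
    rfl
  rw [← h2, ← h1]

variable (M ℓ : ℕ) [NeZero M] [NeZero ℓ]

theorem alpha_jF : heckeAlphaBar Kbar M ℓ (jF M) = jF (M * ℓ) := Subtype.ext rfl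

/-- `[FN (M ℓ) : α (FN M)] = ℓ + 1` for a prime `ℓ ∤ M`. -/
theorem finrank_alpha (hℓ : ℓ.Prime) (hM : ¬ ℓ ∣ M) :
    @Module.finrank (FN M) (FN (M * ℓ)) _ _ (algebraAlong (heckeAlphaBar Kbar M ℓ)).toModule
      = ℓ + 1 := by
  have h1 := finrank_tower (heckeAlphaBar Kbar M ℓ) (jF M)
  have h2 : dedekindPsi (M * ℓ) = (ℓ + 1) * dedekindPsi M := by
    rw [mul_comm M ℓ,
      Fermat.Agent.Lib.Gamma0Count.dedekindPsi_prime_mul_of_not_dvd hℓ (NeZero.ne M) hM]
  rw [alpha_jF, finrank_jF, finrank_jF, h2, mul_comm] at h1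
  exact Nat.eq_of_mul_eq_mul_right (dedekindPsi_pos M) h1

theorem finiteDimensional_alpha (hℓ : ℓ.Prime) (hM : ¬ ℓ ∣ M) :
    @FiniteDimensional (FN M) (FN (M * ℓ)) _ _ (algebraAlong (heckeAlphaBar Kbar M ℓ)).toModule := by
  letI := algebraAlong (heckeAlphaBar Kbar M ℓ)
  apply Module.finite_of_finrank_pos
  rw [finrank_alpha M ℓ hℓ hM]
  exact Nat.succ_pos _

end Fermat.Agent.GAL.DegreeAlpha
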