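import Fermat.Agent.GAL.Hecke.Defs
import Fermat.Agent.GAL.Hecke.AtkinLehner
import Fermat.Agent.GAL.Hecke.DegreeAlpha
import Fermat.Agent.S24
import Fermat.Agent.Lib.Gamma0Cosets

set_option autoImplicit false
set_option linter.style.haveILetI false

/-!
# GAL-HECKE : `[F(Mℓ) : α F(M)] = ℓ + 1` (task H8)
-/

noncomputable section

namespace Fermat.Agent.GAL.Hecke

open AlgebraicCurve ModularCurve Fermat.Agent.S24 IntermediateField

/-- The degree of `F(N)` over `Qbar(j)` (repackaging of S24). -/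
theorem finrank_jF (N : ℕ) [NeZero N] :
    Module.finrank (IntermediateField.adjoin Kbar {jF N}) (FN N) = dedekindPsi N :=
  DegreeAlpha.finrank_jF N

/-- Finiteness along an algebra homomorphism, from finiteness over `k(φ x)`. -/
theorem finiteAlong_of_finiteDimensional {k F F' : Type*} [Field k] [Field F] [Field F']
    [Algebra k F] [Algebra k F'] (φ : F →ₐ[k] F') (x : F) [FiniteDimensional k⟮φ x⟯ F'] :
    FiniteAlong k φ := by
  letI := algebraAlong φ
  letI alg0 : Algebra k⟮x⟯ F' :=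
    ((algebraMap F F').comp (algebraMap k⟮x⟯ F)).toAlgebra
  haveI : IsScalarTower k⟮x⟯ F F' :=
    IsScalarTower.of_algebraMap_eq (fun _ => rfl)
  have hmap : (k⟮x⟯).map φ = k⟮φ x⟯ := by
    rw [IntermediateField.adjoin_map, Set.image_singleton]
  let e : k⟮x⟯ ≃+* k⟮φ x⟯ :=
    ((IntermediateField.equivMap k⟮x⟯ φ).trans (IntermediateField.equivOfEq hmap)).toRingEquiv
  haveI : Module.Finite k⟮x⟯ F' := by
    refine Module.Finite.of_equiv_equiv e.symm (RingEquiv.refl F') ?_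
    ext y
    obtain ⟨z, rfl⟩ := e.surjective y
    show algebraMap k⟮x⟯ F' (e.symm (e z)) = algebraMap k⟮φ x⟯ F' (e z)
    rw [RingEquiv.symm_apply_apply]
    rfl
  exact Module.Finite.of_restrictScalars_finite k⟮x⟯ F F'

theorem finiteAlong_alpha (M ℓ : ℕ) [NeZero M] [NeZero ℓ] :
    FiniteAlong Kbar (heckeAlphaBar Kbar M ℓ) := by
  haveI : FiniteDimensional Kbar⟮heckeAlphaBar Kbar M ℓ (jF M)⟯ (FN (M * ℓ)) := by
    rw [DegreeAlpha.alpha_jF]
    exact finiteDimensional_jF (M * ℓ)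
  exact finiteAlong_of_finiteDimensional (heckeAlphaBar Kbar M ℓ) (jF M)

theorem finrankAlong_alpha (M ℓ : ℕ) [NeZero M] [NeZero ℓ] (hℓ : ℓ.Prime) (hℓM : ¬ ℓ ∣ M) :
    finrankAlong Kbar (heckeAlphaBar Kbar M ℓ) = ℓ + 1 :=
  DegreeAlpha.finrank_alpha M ℓ hℓ hℓM

theorem integral_alpha (M ℓ : ℕ) [NeZero M] [NeZero ℓ] : HeckeAlphaBarIntegral Kbar M ℓ :=
  RingHom.IsIntegral.of_finite (finiteAlong_alpha M ℓ)

theorem finiteAlong_beta (M ℓ : ℕ) [NeZero M] [NeZero ℓ] :
    FiniteAlong Kbar (heckeBetaBar Kbar M ℓ) := by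
  have htr : Transcendental Kbar (heckeBetaBar Kbar M ℓ (jF M)) := by
    intro h
    exact transcendental_jF M
      ((isAlgebraic_algHom_iff (heckeBetaBar Kbar M ℓ) (heckeBetaBar Kbar M ℓ).injective).mp h)
  haveI := finiteDimensional_jF (M * ℓ)
  haveI : FiniteDimensional Kbar⟮heckeBetaBar Kbar M ℓ (jF M)⟯ (FN (M * ℓ)) :=
    finiteDimensional_adjoin_of_transcendental (jF (M * ℓ)) _ htr
  exact finiteAlong_of_finiteDimensional (heckeBetaBar Kbar M ℓ) (jF M)

theorem integral_beta (M ℓ : ℕ) [NeZero M] [NeZero ℓ] : HeckeBetaBarIntegral Kbar M ℓ :=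
  RingHom.IsIntegral.of_finite (finiteAlong_beta M ℓ)

end Fermat.Agent.GAL.Hecke
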