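import Mathlib
import Fermat.Prelude.Def_ModularCurve_X0
import Fermat.Prelude.Def_ModularCurve_LaurentCoeff

set_option autoImplicit false

/-!
# GAL-HECKE : Frobenius on Laurent series in characteristic `ℓ` (task H1)
-/

noncomputable section

namespace Fermat.Agent.GAL.Hecke

open ModularCurve

/-- the case of power series, from Mathlib's `MvPowerSeries.map_frobenius_expand`. -/
theorem seriesFrob_powerSeries (k : Type*) [Field k] (ℓ : ℕ) [NeZero ℓ] [Fact ℓ.Prime] [CharP k ℓ]
    (P : PowerSeries k) :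
    PowerSeries.map (frobenius k ℓ) (PowerSeries.expand ℓ (NeZero.ne ℓ) P) = P ^ ℓ :=
  MvPowerSeries.map_frobenius_expand ℓ (NeZero.ne ℓ)

/-- `qExpand` and `coeffMap` on (the image of) a power series. -/
theorem seriesFrob_qExpand_coe (k : Type*) [Field k] (ℓ : ℕ) [NeZero ℓ] (φ : k →+* k)
    (P : PowerSeries k) :
    qExpand k ℓ (coeffMap φ (P : LaurentSeries k))
      = ((PowerSeries.map φ (PowerSeries.expand ℓ (NeZero.ne ℓ) P) : PowerSeries k) :
          LaurentSeries k) := by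
  have hℓ : (0 : ℤ) < (ℓ : ℤ) := by exact_mod_cast Nat.pos_of_ne_zero (NeZero.ne ℓ)
  ext m
  by_cases hm : (ℓ : ℤ) ∣ m
  · obtain ⟨m', rfl⟩ := hm
    rw [qExpand_coeff_mul, coeffMap_coeff, PowerSeries.coeff_coe, PowerSeries.coeff_coe]
    by_cases h0 : m' < 0
    · rw [if_pos h0, if_pos (mul_neg_of_pos_of_neg hℓ h0), map_zero]
    · rw [if_neg h0, if_neg (by
        have : 0 ≤ (ℓ : ℤ) * m' := mul_nonneg hℓ.le (not_lt.mp h0)
        omega), PowerSeries.coeff_map, Int.natAbs_mul, Int.natAbs_natCast,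
        PowerSeries.coeff_expand_mul]
  · rw [qExpand_coeff_of_not_dvd ℓ _ hm, PowerSeries.coeff_coe]
    split_ifs with h0
    · rfl
    · rw [PowerSeries.coeff_map, PowerSeries.coeff_expand_of_not_dvd, map_zero]
      rwa [← Int.natCast_dvd]

/-- In characteristic `ℓ`: `x(q)^ℓ = x^{(ℓ)}(q^ℓ)`. -/
theorem pow_char_eq_qExpand (k : Type*) [Field k] (ℓ : ℕ) [NeZero ℓ] [Fact ℓ.Prime] [CharP k ℓ]
    (x : LaurentSeries k) : x ^ ℓ = qExpand k ℓ (coeffMap (frobenius k ℓ) x) := by
  conv_lhs => rw [← LaurentSeries.single_order_mul_powerSeriesPart x]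
  conv_rhs => rw [← LaurentSeries.single_order_mul_powerSeriesPart x]
  rw [map_mul, map_mul, coeffMap_single, qExpand_single, seriesFrob_qExpand_coe,
    seriesFrob_powerSeries, mul_pow, HahnSeries.single_pow, map_one, one_pow, PowerSeries.coe_pow,
    nsmul_eq_mul]

end Fermat.Agent.GAL.Hecke
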