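import Fermat.Agent.GAL.Hecke.Defs
import Fermat.Agent.GAL.Hecke.SeriesFrob
import Fermat.Prelude.Thm_ModularCurve_coeffMap_qExpand

set_option autoImplicit false
set_option linter.style.haveILetI false

/-!
# GAL-HECKE : formal identities for Laurent series (task H2)
-/

noncomputable section

namespace Fermat.Agent.GAL.Hecke

open ModularCurve Fermat.Agent.S24

/-- `coeffMap` commutes with `twist`. -/
theorem coeffMap_twist {R S : Type*} [CommRing R] [CommRing S] (f : R →+* S) (c : Rˣ)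
    (x : LaurentSeries R) :
    coeffMap f (S28.twist c x) = S28.twist (Units.map (f : R →* S) c) (coeffMap f x) := by
  ext n
  rw [coeffMap_coeff, S28.twist_coeff, S28.twist_coeff, coeffMap_coeff, map_mul, ← map_zpow]
  rfl

theorem twist_one {R : Type*} [CommRing R] (x : LaurentSeries R) : S28.twist (1 : Rˣ) x = x := by
  ext n
  rw [S28.twist_coeff, one_zpow, Units.val_one, one_mul]

/-- `x(q^ℓ)` with `q ↦ c q` is `x((c^ℓ) q^ℓ)`. -/
theorem twist_qExpand {R : Type*} [CommRing R] (ℓ : ℕ) [NeZero ℓ] (c : Rˣ) (x : LaurentSeries R) :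
    S28.twist c (qExpand R ℓ x) = qExpand R ℓ (S28.twist (c ^ ℓ) x) := by
  ext n
  rw [S28.twist_coeff]
  by_cases hn : (ℓ : ℤ) ∣ n
  · obtain ⟨m, rfl⟩ := hn
    rw [qExpand_coeff_mul, qExpand_coeff_mul, S28.twist_coeff, zpow_mul, zpow_natCast]
  · rw [qExpand_coeff_of_not_dvd ℓ _ hn, qExpand_coeff_of_not_dvd ℓ _ hn, mul_zero]

/-- A series all of whose coefficients lie in `A` comes from `A((q))`. -/
theorem exists_incl_eq (A : ValuationSubring Kbar) (x : LaurentSeries Kbar)
    (hx : ∀ n, x.coeff n ∈ A) : ∃ y : LaurentSeries A, incl A y = x := by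
  refine ⟨⟨fun n => ⟨x.coeff n, hx n⟩, x.isPWO_support.mono fun n hn => ?_⟩, ?_⟩
  · simp only [Function.mem_support, ne_eq, HahnSeries.mem_support] at hn ⊢
    intro h
    exact hn (Subtype.ext h)
  · ext n
    rfl

/-- If `x(q^ℓ)` is `A`-integral so is `x`. -/
theorem exists_incl_eq_of_qExpand (A : ValuationSubring Kbar) (ℓ : ℕ) [NeZero ℓ]
    (x : LaurentSeries Kbar) (z : LaurentSeries A) (h : qExpand Kbar ℓ x = incl A z) :
    ∃ y : LaurentSeries A, incl A y = x ∧ qExpand A ℓ y = z := by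
  obtain ⟨y, hy⟩ := exists_incl_eq A x (fun n => by
    rw [← qExpand_coeff_mul ℓ x n, h, incl_coeff]
    exact (z.coeff _).2)
  refine ⟨y, hy, ?_⟩
  apply incl_injective A
  rw [← h, ← hy, incl, coeffMap_qExpand]

/-- The residue field of a place over `ℓ` has characteristic `ℓ`. -/
theorem charP_residueField (A : ValuationSubring Kbar) {ℓ : ℕ} (hℓ : ℓ.Prime)
    (hA : A.LiesOverPrime ℓ) : CharP (IsLocalRing.ResidueField A) ℓ := by
  have h0 : ((ℓ : ℕ) : IsLocalRing.ResidueField A) = 0 := by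
    have h1 : ((ℓ : A) : Kbar) ∈ A.nonunits := by
      have : ((ℓ : A) : Kbar) = (ℓ : Kbar) := by simp
      rw [this]
      exact hA
    have h2 : (ℓ : A) ∈ IsLocalRing.maximalIdeal A :=
      ValuationSubring.coe_mem_nonunits_iff.mp h1
    have h3 := (IsLocalRing.residue_eq_zero_iff (ℓ : A)).mpr h2
    rwa [map_natCast] at h3
  exact (CharP.charP_iff_prime_eq_zero hℓ).mpr h0

/-- An `ℓ`-th root of unity is `≡ 1` modulo a place over `ℓ`. -/
theorem residue_eq_one_of_pow_eq_one (A : ValuationSubring Kbar) {ℓ : ℕ} (hℓ : ℓ.Prime)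
    (hA : A.LiesOverPrime ℓ) (z : Aˣ) (hz : z ^ ℓ = 1) :
    IsLocalRing.residue A (z : A) = 1 := by
  haveI := charP_residueField A hℓ hA
  haveI : Fact ℓ.Prime := ⟨hℓ⟩
  have h1 : (IsLocalRing.residue A (z : A) - 1) ^ ℓ = 0 := by
    rw [sub_pow_char, one_pow, ← map_pow, ← Units.val_pow_eq_pow_val, hz, Units.val_one, map_one,
      sub_self]
  exact sub_eq_zero.mp (pow_eq_zero_iff hℓ.ne_zero |>.mp h1)

/-- **Reduction of the formal Hecke product.**  If `y(q^ℓ) = x(q^{ℓ²}) ∏_i x(ζ^i q)` in `A((q))`,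
`ζ^ℓ = 1`, then `ȳ(q) = x̄(q^ℓ) · x̄^{(ℓ)}(q)`. -/
theorem red_hecke_product (A : ValuationSubring Kbar) {ℓ : ℕ} [NeZero ℓ] [Fact ℓ.Prime]
    [CharP (IsLocalRing.ResidueField A) ℓ] (hA : A.LiesOverPrime ℓ) (z : Aˣ) (hz : z ^ ℓ = 1)
    (x y : LaurentSeries A)
    (h : qExpand A ℓ y = qExpand A ℓ (qExpand A ℓ x) * ∏ i ∈ Finset.range ℓ, S28.twist (z ^ i) x) :
    red A y = qExpand _ ℓ (red A x) *
      coeffMap (frobenius (IsLocalRing.ResidueField A) ℓ) (red A x) := by
  have hℓ : ℓ.Prime := Fact.out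
  apply qExpand_injective (R := IsLocalRing.ResidueField A) (N := ℓ)
  have h1 := congrArg (red A) h
  have hz1 : ∀ i : ℕ, Units.map ((IsLocalRing.residue A : A →+* IsLocalRing.ResidueField A) :
      A →* IsLocalRing.ResidueField A) (z ^ i) = 1 := by
    intro i
    apply Units.ext
    rw [Units.coe_map, Units.val_one]
    show IsLocalRing.residue A ((z ^ i : Aˣ) : A) = 1
    exact residue_eq_one_of_pow_eq_one A hℓ hA (z ^ i) (by rw [← pow_mul, mul_comm, pow_mul, hz,
      one_pow])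
  have h2 : ∀ i ∈ Finset.range ℓ, red A (S28.twist (z ^ i) x) = red A x := by
    intro i _
    rw [red, coeffMap_twist, hz1, twist_one]
  rw [map_mul, map_prod, Finset.prod_congr rfl h2, Finset.prod_const, Finset.card_range,
    pow_char_eq_qExpand] at h1
  have hq : ∀ w : LaurentSeries A, red A (qExpand A ℓ w) = qExpand _ ℓ (red A w) := fun w => by
    rw [red, coeffMap_qExpand]
  rw [hq, hq, hq] at h1
  rw [map_mul, h1]

end Fermat.Agent.GAL.Hecke
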