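import Fermat.Agent.GAL.Hecke.HeckeBasic
import Fermat.Agent.GAL.Hecke.SeriesRed
import Fermat.Agent.S24.PlaceBasic
import Fermat.Prelude.Thm_ModularCurve_coeffMap_qExpand

set_option autoImplicit false

/-!
# GAL-HECKE : Galois action on `A((q))`, reduction of `heckeNorm`, vanishing criterion (task H13)
-/

noncomputable section

namespace Fermat.Agent.GAL.Hecke

open AlgebraicCurve ModularCurve Fermat.Agent.S24

/-- The action of an element of the decomposition group on `A((q))`. -/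
def galA (A : ValuationSubring Kbar) (σ : A.decompositionSubgroup ℚ) :
    LaurentSeries A →+* LaurentSeries A :=
  coeffMap (MulSemiringAction.toRingHom (A.decompositionSubgroup ℚ) A σ)

theorem incl_galA (A : ValuationSubring Kbar) (σ : A.decompositionSubgroup ℚ)
    (x : LaurentSeries A) :
    incl A (galA A σ x) = coeffMap (((σ : Kbar ≃ₐ[ℚ] Kbar)) : Kbar →+* Kbar) (incl A x) := by
  ext n
  rfl

theorem red_galA_of_inertia (A : ValuationSubring Kbar) (σ : A.decompositionSubgroup ℚ)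
    (hσ : σ ∈ A.inertiaSubgroup ℚ) (x : LaurentSeries A) : red A (galA A σ x) = red A x := by
  ext n
  show IsLocalRing.residue A (σ • x.coeff n) = IsLocalRing.residue A (x.coeff n)
  rw [IsLocalRing.ResidueField.residue_smul]
  have h : MulSemiringAction.toRingAut (A.decompositionSubgroup ℚ)
      (IsLocalRing.ResidueField A) σ = 1 := hσ
  exact congrArg (fun f : RingAut (IsLocalRing.ResidueField A) =>
    f (IsLocalRing.residue A (x.coeff n))) h

theorem red_galA_of_frobenius (A : ValuationSubring Kbar) {ℓ : ℕ} [Fact ℓ.Prime]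
    [CharP (IsLocalRing.ResidueField A) ℓ] (σ : Kbar ≃ₐ[ℚ] Kbar) (hσ : A.IsFrobeniusAt σ ℓ)
    (x : LaurentSeries A) :
    red A (galA A ⟨σ, hσ.mem_decompositionSubgroup⟩ x) =
      coeffMap (frobenius (IsLocalRing.ResidueField A) ℓ) (red A x) := by
  ext n
  show IsLocalRing.residue A
      ((⟨σ, hσ.mem_decompositionSubgroup⟩ : A.decompositionSubgroup ℚ) • x.coeff n) =
    (IsLocalRing.residue A (x.coeff n)) ^ ℓ
  rw [IsLocalRing.ResidueField.residue_smul, hσ.smul_residue_eq]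

/-- Criterion for the vanishing of a class: `u = c P / Q` with `P ≡ Q ≢ 0`. -/
theorem mk_eq_zero_of_red {M m : ℕ} [NeZero M] (hm : 0 < m) (A : ValuationSubring Kbar)
    (hinj : INJ M m A) (u : kummerUnits Kbar (FN M) m) (c : Kbar) (hc : c ≠ 0)
    (P Q : LaurentSeries A) (hP : incl A P ∈ modularFunctionFieldBar M)
    (hQ : incl A Q ∈ modularFunctionFieldBar M) (hred : red A P = red A Q) (hQ0 : red A Q ≠ 0)
    (h : (((u : (FN M)ˣ) : FN M) : LaurentSeries Kbar) * incl A Q =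
      algebraMap Kbar (LaurentSeries Kbar) c * incl A P) : KV.mk u = 0 := by
  obtain ⟨c0, hc0⟩ := IsAlgClosed.exists_pow_nat_eq c hm
  have hc00 : c0 ≠ 0 := by
    rintro rfl
    rw [zero_pow hm.ne'] at hc0
    exact hc hc0.symm
  let C0 : (FN M)ˣ := Units.mk0 (algebraMap Kbar (FN M) c0) ((map_ne_zero _).2 hc00)
  have hC0 : C0 ∈ kummerUnits Kbar (FN M) m := by
    intro v
    show (m : ℤ) ∣ v.ord (algebraMap Kbar (FN M) c0)
    rw [Fermat.Agent.S24.ord_algebraMap]
    exact dvd_zero _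
  have hu' : (u : (FN M)ˣ) * (C0 ^ m)⁻¹ ∈ kummerUnits Kbar (FN M) m :=
    mul_mem u.2 (inv_mem (pow_mem hC0 m))
  have hCc : (((C0 ^ m : (FN M)ˣ) : FN M) : LaurentSeries Kbar) =
      algebraMap Kbar (LaurentSeries Kbar) c := by
    rw [Units.val_pow_eq_pow_val, IntermediateField.coe_pow, ← hc0, map_pow]
    rfl
  have hCne : algebraMap Kbar (LaurentSeries Kbar) c ≠ 0 := (map_ne_zero _).2 hc
  obtain ⟨y, hy⟩ := hinj P Q hP hQ hred hQ0 ((u : (FN M)ˣ) * (C0 ^ m)⁻¹) (by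
    rw [Units.val_mul, Units.val_inv_eq_inv_val, IntermediateField.coe_mul,
      IntermediateField.coe_inv, hCc, mul_right_comm, h, mul_right_comm, mul_inv_cancel₀ hCne,
      one_mul]) hu'
  rw [KV.mk_eq_zero_iff]
  refine ⟨y * C0, ?_⟩
  rw [mul_pow, hy, inv_mul_cancel_right]

/-- Integrality and reduction of `heckeNorm`. -/
theorem exists_red_heckeNorm (M ℓ : ℕ) [NeZero M] [NeZero ℓ] [Fact ℓ.Prime] (hℓM : ¬ ℓ ∣ M)
    (A : ValuationSubring Kbar) (hA : A.LiesOverPrime ℓ) [CharP (IsLocalRing.ResidueField A) ℓ]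
    (x : LaurentSeries A) (hx : incl A x ∈ modularFunctionFieldBar M) :
    ∃ y : LaurentSeries A,
      incl A y = ((heckeNorm Kbar M ℓ ⟨incl A x, hx⟩ : FN M) : LaurentSeries Kbar) ∧
      red A y = qExpand _ ℓ (red A x) *
        coeffMap (frobenius (IsLocalRing.ResidueField A) ℓ) (red A x) := by
  have hℓ : ℓ.Prime := Fact.out
  obtain ⟨ζ, hζ⟩ := HasEnoughRootsOfUnity.exists_primitiveRoot Kbar ℓ
  have hζ0 : ζ ≠ 0 := hζ.ne_zero hℓ.ne_zero
  have hζpow : ζ ^ ℓ = 1 := hζ.pow_eq_one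
  have hinv : ζ⁻¹ = ζ ^ (ℓ - 1) := by
    apply inv_eq_of_mul_eq_one_right
    rw [← pow_succ', Nat.sub_add_cancel hℓ.one_lt.le, hζpow]
  have hinv' : ζ = ζ⁻¹ ^ (ℓ - 1) := by
    rw [inv_pow, ← hinv, inv_inv]
  have hζA : ζ ∈ A := by
    rcases A.mem_or_inv_mem ζ with h | h
    · exact h
    · rw [hinv']
      exact pow_mem h _
  have hζA' : ζ⁻¹ ∈ A := by
    rw [hinv]
    exact pow_mem hζA _
  let z : Aˣ := ⟨⟨ζ, hζA⟩, ⟨ζ⁻¹, hζA'⟩, Subtype.ext (mul_inv_cancel₀ hζ0),
    Subtype.ext (inv_mul_cancel₀ hζ0)⟩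
  have hz : z ^ ℓ = 1 := by
    apply Units.ext
    apply Subtype.ext
    show ((((z ^ ℓ : Aˣ) : A)) : Kbar) = 1
    rw [Units.val_pow_eq_pow_val, SubmonoidClass.coe_pow]
    exact hζpow
  have htw : ∀ i : ℕ, incl A (S28.twist (z ^ i) x) =
      Fermat.Agent.S24.twist (ζ ^ i) (pow_ne_zero _ hζ0) (incl A x) := by
    intro i
    ext n
    rw [incl_coeff, Fermat.Agent.S24.twist_coeff, incl_coeff]
    show (((((z ^ i) ^ n : Aˣ) : A) * x.coeff n : A) : Kbar) = _
    rw [MulMemClass.coe_mul]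
    congr 1
    have h1 : ∀ w : Aˣ, ∀ n : ℤ, (((w ^ n : Aˣ) : A) : Kbar) = ((w : A) : Kbar) ^ n := by
      intro w n
      have := map_zpow (Units.map (A.subtype : A →* Kbar)) w n
      have h2 := congrArg (Units.val) this
      rw [Units.val_zpow_eq_zpow_val] at h2
      exact h2
    rw [h1, Units.val_pow_eq_pow_val, SubmonoidClass.coe_pow]
  have key := NormFormula.qExpand_heckeNorm (M := M) hℓ hℓM hζ ⟨incl A x, hx⟩
  have hz' : qExpand Kbar ℓ ((heckeNorm Kbar M ℓ ⟨incl A x, hx⟩ : FN M) : LaurentSeries Kbar) =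
      incl A (qExpand A ℓ (qExpand A ℓ x) * ∏ i ∈ Finset.range ℓ, S28.twist (z ^ i) x) := by
    have hq : ∀ w : LaurentSeries A, incl A (qExpand A ℓ w) = qExpand Kbar ℓ (incl A w) :=
      fun w => coeffMap_qExpand _ ℓ w
    rw [key, map_mul, map_prod, hq, hq]
    congr 1
    rw [← Fin.prod_univ_eq_prod_range (fun i => incl A (S28.twist (z ^ i) x)) ℓ]
    exact Finset.prod_congr rfl fun i _ => (htw i).symm
  obtain ⟨y, hy1, hy2⟩ := exists_incl_eq_of_qExpand A ℓ _ _ hz'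
  exact ⟨y, hy1, red_hecke_product A hA z hz x y hy2⟩

end Fermat.Agent.GAL.Hecke
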