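import Fermat.Agent.GAL.Hecke.Defs
import Fermat.Agent.S24.FNAdjoin
import Fermat.Agent.GAL.Gauss.Main

set_option autoImplicit false

/-!
# GAL-HECKE : normalisation of elements of the function field at a place of `Qbar`
(from `GAL/Gauss/Main.normalise_frac`)
-/

noncomputable section

namespace Fermat.Agent.GAL.Hecke

open AlgebraicCurve ModularCurve Fermat.Agent.S24

/-- The two descriptions of the function field over `Qbar` agree. -/
theorem modularFunctionFieldBar_eq_fullC (M : ℕ) :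
    modularFunctionFieldBar M = modularFunctionFieldFullC Kbar M := by
  rw [FNAdjoin.modularFunctionFieldBar_eq_adjoin, modularFunctionFieldFullC]
  congr 1
  ext x
  constructor
  · rintro ⟨d, hd, hdM, rfl⟩
    refine ⟨d, hd, hdM, ?_⟩
    rw [FNAdjoin.coeffEmb_qExpand, coeffEmb, ← jqModC_rat, coeffMap_jqModC]
  · rintro ⟨d, hd, hdM, rfl⟩
    refine ⟨d, hd, hdM, ?_⟩
    rw [FNAdjoin.coeffEmb_qExpand, coeffEmb, ← jqModC_rat, coeffMap_jqModC]

/-- `M` is invertible in the residue field of a place over `ℓ ∤ M`. -/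
theorem natCast_residue_ne_zero (A : ValuationSubring Kbar) {ℓ : ℕ} (hℓ : ℓ.Prime)
    (hA : A.LiesOverPrime ℓ) {M : ℕ} (hℓM : ¬ ℓ ∣ M) :
    ((M : ℕ) : IsLocalRing.ResidueField A) ≠ 0 := by
  intro h
  have hcop : Nat.Coprime ℓ M := (Nat.Prime.coprime_iff_not_dvd hℓ).mpr hℓM
  have hℓ0 : ((ℓ : ℕ) : IsLocalRing.ResidueField A) = 0 := by
    have h1 : ((ℓ : ℕ) : A) ∈ IsLocalRing.maximalIdeal A := by
      rw [← A.coe_mem_nonunits_iff]
      have hA' : ((ℓ : ℕ) : Kbar) ∈ A.nonunits := hA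
      simpa using hA'
    have h2 := (IsLocalRing.residue_eq_zero_iff _).mpr h1
    simpa using h2
  have hb := Nat.isCoprime_iff_coprime.mpr hcop
  obtain ⟨a, b, hab⟩ := hb
  have h3 := congrArg (fun z : ℤ => (z : IsLocalRing.ResidueField A)) hab
  simp only [Int.cast_add, Int.cast_mul, Int.cast_natCast, hℓ0, h, mul_zero, add_zero,
    Int.cast_one] at h3
  exact zero_ne_one h3

/-- **NORMALISE.** -/
theorem exists_normalise (M : ℕ) [NeZero M] (A : ValuationSubring Kbar) {ℓ : ℕ} (hℓ : ℓ.Prime)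
    (hA : A.LiesOverPrime ℓ) (hℓM : ¬ ℓ ∣ M) (f : FN M) (hf : f ≠ 0) :
    ∃ (c : Kbar) (P Q : LaurentSeries A), c ≠ 0 ∧ red A P ≠ 0 ∧ red A Q ≠ 0 ∧
      incl A P ∈ modularFunctionFieldBar M ∧ incl A Q ∈ modularFunctionFieldBar M ∧
      (f : LaurentSeries Kbar) * incl A Q = algebraMap Kbar (LaurentSeries Kbar) c * incl A P := by
  have hfm : (f : LaurentSeries Kbar) ∈ modularFunctionFieldFullC Kbar M := by
    rw [← modularFunctionFieldBar_eq_fullC]
    exact f.2
  have hf0 : (f : LaurentSeries Kbar) ≠ 0 := fun h => hf (Subtype.ext h)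
  obtain ⟨c, P, Q, hc, hP, hQ, hP0, hQ0, -, -, h⟩ :=
    Gauss.normalise_frac A M (natCast_residue_ne_zero A hℓ hA hℓM) _ hfm hf0
  refine ⟨c, P, Q, hc, hP0, hQ0, ?_, ?_, ?_⟩
  · rw [modularFunctionFieldBar_eq_fullC]; exact hP
  · rw [modularFunctionFieldBar_eq_fullC]; exact hQ
  · rw [mul_comm, algebraMap_laurentSeries_eq_single]
    exact h

end Fermat.Agent.GAL.Hecke
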