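import Fermat.Agent.GAL.Hecke.GalA
import Fermat.Agent.GAL.Hecke.Normalise

set_option autoImplicit false

/-!
# GAL-HECKE : output theorems (task H14)

On `V_m(F(M)) = KV Kbar (FN M) m`: `T_ℓ` commutes with `G_ℚ`; given `INJ M m A` for a place `A`
of `Qbar` over `ℓ`: inertia at `A` acts trivially and every Frobenius element `σ` at `A` satisfies
`σ² - T_ℓ σ + ℓ = 0`.
-/

noncomputable section

namespace Fermat.Agent.GAL.Hecke

open AlgebraicCurve ModularCurve Fermat.Agent.S24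

/-- the Galois conjugate of a Kummer unit. -/
def esConj {M m : ℕ} (σ : Kbar ≃ₐ[ℚ] Kbar) (u : kummerUnits Kbar (FN M) m) :
    kummerUnits Kbar (FN M) m :=
  kummerMap (semilinearUnits (arithmeticGalois (L := Kbar) (modularFunctionFieldFull M) σ))
    (semilinearUnits_mem _) u

theorem es_smul_mk {M m : ℕ} (σ : Kbar ≃ₐ[ℚ] Kbar) (u : kummerUnits Kbar (FN M) m) :
    σ • KV.mk u = KV.mk (esConj σ u) := rfl

theorem es_coe_conj {M m : ℕ} (σ : Kbar ≃ₐ[ℚ] Kbar) (u : kummerUnits Kbar (FN M) m) :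
    (((esConj σ u : (FN M)ˣ) : FN M) : LaurentSeries Kbar) =
      coeffMap (σ : Kbar →+* Kbar) (((u : (FN M)ˣ) : FN M) : LaurentSeries Kbar) := rfl

theorem es_coe_conj' {M m : ℕ} (σ : Kbar ≃ₐ[ℚ] Kbar) (u : kummerUnits Kbar (FN M) m) :
    ((esConj σ u : (FN M)ˣ) : FN M) =
      arithmeticRingAut (modularFunctionFieldFull M) σ ((u : (FN M)ˣ) : FN M) := rfl

theorem es_coe_ne_zero {M m : ℕ} (u : kummerUnits Kbar (FN M) m) :
    (((u : (FN M)ˣ) : FN M) : LaurentSeries Kbar) ≠ 0 := by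
  intro h
  exact (u : (FN M)ˣ).ne_zero (Subtype.ext h)

/-- conjugating the normalisation relation. -/
theorem es_conj_rel (A : ValuationSubring Kbar) (τ : A.decompositionSubgroup ℚ)
    {U : LaurentSeries Kbar} {c : Kbar} {P Q : LaurentSeries A}
    (h : U * incl A Q = algebraMap Kbar (LaurentSeries Kbar) c * incl A P) :
    coeffMap (((τ : Kbar ≃ₐ[ℚ] Kbar)) : Kbar →+* Kbar) U * incl A (galA A τ Q) =
      algebraMap Kbar (LaurentSeries Kbar) ((τ : Kbar ≃ₐ[ℚ] Kbar) c) * incl A (galA A τ P) := by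
  have := congrArg (coeffMap (((τ : Kbar ≃ₐ[ℚ] Kbar)) : Kbar →+* Kbar)) h
  rw [map_mul, map_mul, coeffMap_algebraMap] at this
  rw [incl_galA, incl_galA]
  exact this

theorem es_incl_galA_mem {M : ℕ} (A : ValuationSubring Kbar) (τ : A.decompositionSubgroup ℚ)
    {P : LaurentSeries A} (hP : incl A P ∈ modularFunctionFieldBar M) :
    incl A (galA A τ P) ∈ modularFunctionFieldBar M := by
  rw [incl_galA]
  exact coeffMap_mem_laurentBaseChange _ hP

/-- `T_ℓ` commutes with the Galois action. -/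
theorem heckeT_galois (M ℓ m : ℕ) [NeZero M] [NeZero ℓ] (hℓ : ℓ.Prime) (hℓM : ¬ ℓ ∣ M)
    (σ : Kbar ≃ₐ[ℚ] Kbar) (x : KV Kbar (FN M) m) :
    heckeT Kbar M ℓ m (σ • x) = σ • heckeT Kbar M ℓ m x := by
  obtain ⟨u, rfl⟩ := KV.mk_surjective x
  have hP := heckeNormPreserves M ℓ m
  rw [es_smul_mk, heckeT_mk hP, heckeT_mk hP, es_smul_mk]
  congr 1
  apply Subtype.ext
  apply Units.ext
  exact heckeNorm_galois M ℓ hℓ hℓM σ ((u : (FN M)ˣ) : FN M)

/-- **Unramifiedness.** -/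
theorem inertia_smul (M m ℓ : ℕ) [NeZero M] (hm : 0 < m) (hℓ : ℓ.Prime) (hℓM : ¬ ℓ ∣ M)
    (A : ValuationSubring Kbar) (hA : A.LiesOverPrime ℓ) (hinj : INJ M m A)
    (σ : Kbar ≃ₐ[ℚ] Kbar) (hσ : σ ∈ A.inertiaSubgroupIn ℚ) (x : KV Kbar (FN M) m) :
    σ • x = x := by
  obtain ⟨u, rfl⟩ := KV.mk_surjective x
  obtain ⟨τ, hτ, rfl⟩ := hσ
  obtain ⟨c, P, Q, hc, hP0, hQ0, hP, hQ, h⟩ :=
    exists_normalise M A hℓ hA hℓM ((u : (FN M)ˣ) : FN M) (u : (FN M)ˣ).ne_zero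
  change (τ : Kbar ≃ₐ[ℚ] Kbar) • KV.mk u = KV.mk u
  generalize hσdef : (τ : Kbar ≃ₐ[ℚ] Kbar) = σ
  rw [← sub_eq_zero, es_smul_mk, sub_eq_add_neg, ← KV.mk_inv, ← KV.mk_mul]
  have hσc : σ c ≠ 0 := (map_ne_zero _).2 hc
  have h2 := es_conj_rel A τ h
  rw [hσdef] at h2
  refine mk_eq_zero_of_red hm A hinj _ (σ c / c) (div_ne_zero hσc hc)
    (galA A τ P * Q) (galA A τ Q * P) ?_ ?_ ?_ ?_ ?_
  · rw [map_mul]
    exact mul_mem (es_incl_galA_mem A τ hP) hQ
  · rw [map_mul]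
    exact mul_mem (es_incl_galA_mem A τ hQ) hP
  · rw [map_mul, map_mul, red_galA_of_inertia A τ hτ, red_galA_of_inertia A τ hτ, mul_comm]
  · rw [map_mul, red_galA_of_inertia A τ hτ]
    exact mul_ne_zero hQ0 hP0
  · have hU := es_coe_ne_zero u
    have hC : algebraMap Kbar (LaurentSeries Kbar) c ≠ 0 := (map_ne_zero _).2 hc
    rw [Subgroup.coe_mul, Units.val_mul, Subgroup.coe_inv, Units.val_inv_eq_inv_val,
      IntermediateField.coe_mul, IntermediateField.coe_inv, es_coe_conj, map_mul, map_mul,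
      map_div₀]
    set U := (((u : (FN M)ˣ) : FN M) : LaurentSeries Kbar) with hUdef
    have h3 : U⁻¹ * incl A P = (algebraMap Kbar (LaurentSeries Kbar) c)⁻¹ * incl A Q := by
      rw [inv_mul_eq_iff_eq_mul₀ hU, ← mul_assoc, mul_comm U, mul_assoc, h, ← mul_assoc,
        inv_mul_cancel₀ hC, one_mul]
    calc coeffMap (σ : Kbar →+* Kbar) U * U⁻¹ * (incl A (galA A τ Q) * incl A P)
        = (coeffMap (σ : Kbar →+* Kbar) U * incl A (galA A τ Q)) * (U⁻¹ * incl A P) := by ring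
      _ = _ := by
        rw [h3, h2, div_eq_mul_inv]
        ring

/-- **Eichler-Shimura relation.** -/
theorem eichlerShimura (M m ℓ : ℕ) [NeZero M] [NeZero ℓ] (hm : 0 < m) (hℓ : ℓ.Prime)
    (hℓM : ¬ ℓ ∣ M) (A : ValuationSubring Kbar) (hA : A.LiesOverPrime ℓ) (hinj : INJ M m A)
    (σ : Kbar ≃ₐ[ℚ] Kbar) (hσ : A.IsFrobeniusAt σ ℓ) (x : KV Kbar (FN M) m) :
    σ • σ • x - heckeT Kbar M ℓ m (σ • x) + ℓ • x = 0 := by
  obtain ⟨u, rfl⟩ := KV.mk_surjective x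
  have : Fact ℓ.Prime := ⟨hℓ⟩
  have : CharP (IsLocalRing.ResidueField A) ℓ := charP_residueField A hℓ hA
  have hPres := heckeNormPreserves M ℓ m
  obtain ⟨c, P, Q, hc, hP0, hQ0, hP, hQ, h⟩ :=
    exists_normalise M A hℓ hA hℓM ((u : (FN M)ˣ) : FN M) (u : (FN M)ˣ).ne_zero
  have h1 : coeffMap (σ : Kbar →+* Kbar) _ * _ = _ :=
    es_conj_rel A ⟨σ, hσ.mem_decompositionSubgroup⟩ h
  have h2 : coeffMap (σ : Kbar →+* Kbar) _ * _ = _ :=
    es_conj_rel A ⟨σ, hσ.mem_decompositionSubgroup⟩ h1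
  generalize hτ : (⟨σ, hσ.mem_decompositionSubgroup⟩ : A.decompositionSubgroup ℚ) = τ at h1 h2
  have hτσ : (τ : Kbar ≃ₐ[ℚ] Kbar) = σ := by rw [← hτ]
  rw [hτσ] at h1 h2
  have hsP := es_incl_galA_mem (M := M) A τ hP
  have hsQ := es_incl_galA_mem (M := M) A τ hQ
  have hs2P := es_incl_galA_mem (M := M) A τ hsP
  have hs2Q := es_incl_galA_mem (M := M) A τ hsQ
  obtain ⟨NP, hNP, hNPred⟩ := exists_red_heckeNorm M ℓ hℓM A hA (galA A τ P) hsP
  obtain ⟨NQ, hNQ, hNQred⟩ := exists_red_heckeNorm M ℓ hℓM A hA (galA A τ Q) hsQ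
  have hfr : ∀ x : LaurentSeries A, red A (galA A τ x) =
      coeffMap (frobenius (IsLocalRing.ResidueField A) ℓ) (red A x) := by
    intro x
    rw [← hτ]
    exact red_galA_of_frobenius A σ hσ x
  -- the relation for the norm
  have h4 : ((heckeNorm Kbar M ℓ ((esConj σ u : (FN M)ˣ) : FN M) : FN M) : LaurentSeries Kbar) *
      incl A NQ = algebraMap Kbar (LaurentSeries Kbar) (σ c ^ (ℓ + 1)) * incl A NP := by
    have e : ((esConj σ u : (FN M)ˣ) : FN M) * ⟨incl A (galA A τ Q), hsQ⟩ =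
        algebraMap Kbar (FN M) (σ c) * ⟨incl A (galA A τ P), hsP⟩ := Subtype.ext h1
    have e2 := congrArg (heckeNorm Kbar M ℓ) e
    rw [map_mul, map_mul, heckeNorm_algebraMap M ℓ hℓ hℓM] at e2
    have e3 := congrArg (Subtype.val) e2
    rw [hNQ, hNP]
    exact e3
  rw [es_smul_mk, es_smul_mk, heckeT_mk hPres, ← KV.mk_pow, sub_eq_add_neg, ← KV.mk_inv,
    ← KV.mk_mul, ← KV.mk_mul]
  have hσc : σ c ≠ 0 := (map_ne_zero _).2 hc
  have hσσc : σ (σ c) ≠ 0 := (map_ne_zero _).2 hσc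
  refine mk_eq_zero_of_red hm A hinj _ (σ (σ c) * c ^ ℓ / σ c ^ (ℓ + 1))
    (div_ne_zero (mul_ne_zero hσσc (pow_ne_zero _ hc)) (pow_ne_zero _ hσc))
    (galA A τ (galA A τ P) * P ^ ℓ * NQ) (galA A τ (galA A τ Q) * Q ^ ℓ * NP) ?_ ?_ ?_ ?_ ?_
  · rw [map_mul, map_mul, map_pow, hNQ]
    exact mul_mem (mul_mem hs2P (pow_mem hP _)) (Subtype.prop _)
  · rw [map_mul, map_mul, map_pow, hNP]
    exact mul_mem (mul_mem hs2Q (pow_mem hQ _)) (Subtype.prop _)
  · rw [map_mul, map_mul, map_mul, map_mul, map_pow, map_pow, hNQred, hNPred,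
      pow_char_eq_qExpand, pow_char_eq_qExpand]
    simp only [hfr]
    ring
  · rw [map_mul, map_mul, map_pow, hNPred]
    simp only [hfr]
    have hinjF : ∀ y : LaurentSeries (IsLocalRing.ResidueField A), y ≠ 0 →
        coeffMap (frobenius (IsLocalRing.ResidueField A) ℓ) y ≠ 0 := fun y hy =>
      (map_ne_zero _).2 hy
    have hinjq : ∀ y : LaurentSeries (IsLocalRing.ResidueField A), y ≠ 0 →
        qExpand (IsLocalRing.ResidueField A) ℓ y ≠ 0 := fun y hy =>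
      (map_ne_zero _).2 hy
    exact mul_ne_zero (mul_ne_zero (hinjF _ (hinjF _ hQ0)) (pow_ne_zero _ hQ0))
      (mul_ne_zero (hinjq _ (hinjF _ hP0)) (hinjF _ (hinjF _ hP0)))
  · have hU := es_coe_ne_zero u
    have hC : algebraMap Kbar (LaurentSeries Kbar) (σ c ^ (ℓ + 1)) ≠ 0 :=
      (map_ne_zero _).2 (pow_ne_zero _ hσc)
    have hN0 : ((heckeNorm Kbar M ℓ ((esConj σ u : (FN M)ˣ) : FN M) : FN M) :
        LaurentSeries Kbar) ≠ 0 := by
      intro h0
      have : heckeNorm Kbar M ℓ ((esConj σ u : (FN M)ˣ) : FN M) = 0 := Subtype.ext h0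
      exact (Units.map (heckeNorm Kbar M ℓ) (esConj σ u : (FN M)ˣ)).ne_zero this
    rw [Subgroup.coe_mul, Subgroup.coe_mul, Units.val_mul, Units.val_mul, Subgroup.coe_inv,
      Units.val_inv_eq_inv_val, Subgroup.coe_pow, Units.val_pow_eq_pow_val,
      IntermediateField.coe_mul, IntermediateField.coe_mul, IntermediateField.coe_inv,
      IntermediateField.coe_pow, es_coe_conj, es_coe_conj, map_mul, map_mul, map_mul, map_mul,
      map_pow, map_pow, map_div₀, map_mul, map_pow]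
    rw [Units.coe_map]
    generalize hUdef : (((u : (FN M)ˣ) : FN M) : LaurentSeries Kbar) = U at *
    generalize hNdef : ((heckeNorm Kbar M ℓ ((esConj σ u : (FN M)ˣ) : FN M) : FN M) :
        LaurentSeries Kbar) = Nu at *
    have h5 : Nu⁻¹ * incl A NP =
        (algebraMap Kbar (LaurentSeries Kbar) (σ c ^ (ℓ + 1)))⁻¹ * incl A NQ := by
      rw [inv_mul_eq_iff_eq_mul₀ hN0, ← mul_assoc, mul_comm Nu, mul_assoc, h4, ← mul_assoc,
        inv_mul_cancel₀ hC, one_mul]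
    calc coeffMap (σ : Kbar →+* Kbar) (coeffMap (σ : Kbar →+* Kbar) U) * Nu⁻¹ * U ^ ℓ *
          (incl A (galA A τ (galA A τ Q)) * incl A Q ^ ℓ * incl A NP)
        = (coeffMap (σ : Kbar →+* Kbar) (coeffMap (σ : Kbar →+* Kbar) U) *
            incl A (galA A τ (galA A τ Q))) * (U * incl A Q) ^ ℓ * (Nu⁻¹ * incl A NP) := by ring
      _ = _ := by
        rw [h5, h2, h, div_eq_mul_inv]
        ring

end Fermat.Agent.GAL.Hecke
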