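import Fermat.Agent.GAL.Model
import Fermat.Agent.S24.DefsB
import Fermat.Agent.S28.Interface
import Fermat.Prelude.Def_EllipticCurve_FrobeniusTrace

set_option autoImplicit false

/-!
# GAL-HECKE : definitions

`incl A`, `red A` : the maps `A((q)) → Qbar((q))` and `A((q)) → k((q))` for a valuation subring
`A` of `Qbar` with residue field `k`.   `INJ M m A` : the injectivity statement consumed by
GAL-HECKE (to be delivered by GAL-RED).
-/

noncomputable section

namespace Fermat.Agent.GAL.Hecke

open AlgebraicCurve ModularCurve Fermat.Agent.S24

/-- `A((q)) → Qbar((q))`. -/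
def incl (A : ValuationSubring Kbar) : LaurentSeries A →+* LaurentSeries Kbar :=
  coeffMap A.subtype

/-- Reduction of coefficients `A((q)) → k((q))`. -/
def red (A : ValuationSubring Kbar) :
    LaurentSeries A →+* LaurentSeries (IsLocalRing.ResidueField A) :=
  coeffMap (IsLocalRing.residue A)

@[simp] theorem incl_coeff (A : ValuationSubring Kbar) (x : LaurentSeries A) (n : ℤ) :
    (incl A x).coeff n = (x.coeff n : Kbar) := rfl

@[simp] theorem red_coeff (A : ValuationSubring Kbar) (x : LaurentSeries A) (n : ℤ) :
    (red A x).coeff n = IsLocalRing.residue A (x.coeff n) := rfl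

theorem incl_injective (A : ValuationSubring Kbar) : Function.Injective (incl A) := by
  intro x y h
  ext n
  have := congrArg (fun s : LaurentSeries Kbar => s.coeff n) h
  exact this

/-- **INJ** (interface with GAL-RED).  A Kummer unit `u = P / Q` of level `M`, where `P, Q` are
elements of the function field with `A`-integral `q`-expansions having the same nonzero reduction,
is an `m`-th power. (True for `A` over a prime `ℓ ∤ m M`.) -/
def INJ (M m : ℕ) (A : ValuationSubring Kbar) : Prop :=
  ∀ P Q : LaurentSeries A,
    incl A P ∈ modularFunctionFieldBar M → incl A Q ∈ modularFunctionFieldBar M →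
    red A P = red A Q → red A Q ≠ 0 →
    ∀ u : (FN M)ˣ, ((u : FN M) : LaurentSeries Kbar) * incl A Q = incl A P →
      u ∈ kummerUnits Kbar (FN M) m → ∃ y : (FN M)ˣ, y ^ m = u

end Fermat.Agent.GAL.Hecke
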