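import Fermat.Agent.GAL.Hecke.PlacesAbove

set_option autoImplicit false

/-!
# GAL-HECKE : pull-back and norm preserve Kummer units (task H5)
-/

namespace Fermat.Agent.GAL.Hecke

open AlgebraicCurve

variable {K F F' : Type*} [Field K] [Field F] [Field F'] [Algebra K F] [Algebra K F']

/-- Pull-back along an integral (= algebraic) extension preserves Kummer units. -/
theorem map_mem_kummerUnits (φ : F →ₐ[K] F') (hφ : φ.toRingHom.IsIntegral) {m : ℕ} {u : Fˣ}
    (hu : u ∈ kummerUnits K F m) :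
    Units.map (φ : F →* F') u ∈ kummerUnits K F' m := by
  letI := algebraAlong φ
  haveI := isScalarTower_along φ
  haveI := isIntegral_along φ hφ
  intro Q
  have h1 : ((Units.map (φ : F →* F') u : F'ˣ) : F') = algebraMap F F' (u : F) := rfl
  rw [h1, Q.ord_restrict]
  exact dvd_mul_of_dvd_right (hu (Q.restrict F)) _

/-- The norm of a finite separable extension preserves Kummer units. -/
theorem norm_mem_kummerUnits [Algebra F F'] [IsScalarTower K F F'] [FiniteDimensional F F']
    [Algebra.IsSeparable F F'] {m : ℕ} {g : F'ˣ} (hg : g ∈ kummerUnits K F' m) :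
    Units.map (Algebra.norm F : F' →* F) g ∈ kummerUnits K F m := by
  intro P
  have h1 : ((Units.map (Algebra.norm F : F' →* F) g : Fˣ) : F) = Algebra.norm F (g : F') := rfl
  rw [h1]
  obtain ⟨t, ht0, ht⟩ := exists_ord_eq_above (K := K) (F := F) P
    (fun Q : Place K F' => Q.ord (g : F') / (m : ℤ))
  have htm0 : t ^ m ≠ 0 := pow_ne_zero _ ht0
  set s : F' := (g : F') * (t ^ m)⁻¹ with hs
  have hs0 : s ≠ 0 := mul_ne_zero g.ne_zero (inv_ne_zero htm0)
  have hsord : ∀ Q : Place K F', Q.restrict F = P → Q.ord s = 0 := by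
    intro Q hQ
    have h2 := Q.ord_zpow t (m : ℤ)
    rw [zpow_natCast] at h2
    rw [hs, Q.ord_mul g.ne_zero (inv_ne_zero htm0), Q.ord_inv, h2, ht Q hQ,
      Int.mul_ediv_cancel' (hg Q)]
    ring
  have hg' : (g : F') = t ^ m * s := by
    rw [hs, mul_comm (g : F'), ← mul_assoc, mul_inv_cancel₀ htm0, one_mul]
  have hnt0 : Algebra.norm F t ≠ 0 := Algebra.norm_ne_zero_iff.mpr ht0
  have hns0 : Algebra.norm F s ≠ 0 := Algebra.norm_ne_zero_iff.mpr hs0
  have h3 := P.ord_zpow (Algebra.norm F t) (m : ℤ)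
  rw [zpow_natCast] at h3
  rw [hg', map_mul, map_pow, P.ord_mul (pow_ne_zero _ hnt0) hns0, h3,
    ord_norm_eq_zero P s hs0 hsord, add_zero]
  exact dvd_mul_right _ _

end Fermat.Agent.GAL.Hecke
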