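import Fermat.Agent.GAL.Hecke.NormFormula
import Fermat.Agent.GAL.Hecke.KummerNorm

set_option autoImplicit false
set_option linter.style.haveILetI false

/-!
# GAL-HECKE : basic properties of `heckeNorm` (task H10)
-/

noncomputable section

namespace Fermat.Agent.GAL.Hecke

open AlgebraicCurve ModularCurve Fermat.Agent.S24

section Abstract

variable {K F F' : Type*} [Field K] [Field F] [Field F'] [Algebra K F] [Algebra K F']

/-- The norm along a finite homomorphism of fields of characteristic zero preserves Kummer units. -/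
theorem normAlong_mem_kummerUnits [CharZero F] (φ : F →ₐ[K] F') (hfin : FiniteAlong K φ) {m : ℕ}
    {g : F'ˣ} (hg : g ∈ kummerUnits K F' m) :
    Units.map (normAlong φ) g ∈ kummerUnits K F m := by
  letI := algebraAlong φ
  haveI := isScalarTower_along φ
  haveI : FiniteDimensional F F' := hfin
  exact norm_mem_kummerUnits hg

theorem normAlong_algebraMap (φ : F →ₐ[K] F') (c : K) :
    normAlong φ (algebraMap K F' c) = algebraMap K F (c ^ finrankAlong K φ) := by
  letI := algebraAlong φ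
  haveI := isScalarTower_along φ
  show Algebra.norm F (algebraMap K F' c) = _
  rw [IsScalarTower.algebraMap_apply K F F', Algebra.norm_algebraMap, map_pow]
  rfl

end Abstract

theorem heckeNorm_eq (M ℓ : ℕ) [NeZero M] [NeZero ℓ] (f : FN M) :
    heckeNorm Kbar M ℓ f = normAlong (heckeAlphaBar Kbar M ℓ) (heckeBetaBar Kbar M ℓ f) := by
  rw [heckeNorm, MonoidHom.comp_apply]
  rfl

/-- `heckeNorm` preserves Kummer units. -/
theorem heckeNormPreserves (M ℓ : ℕ) [NeZero M] [NeZero ℓ] (m : ℕ) :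
    HeckeNormPreserves Kbar M ℓ m := by
  intro u hu P
  have h1 := map_mem_kummerUnits (heckeBetaBar Kbar M ℓ) (integral_beta M ℓ) hu
  have h2 := normAlong_mem_kummerUnits (heckeAlphaBar Kbar M ℓ) (finiteAlong_alpha M ℓ) h1 P
  rw [Units.coe_map] at h2 ⊢
  rw [Units.coe_map] at h2
  have e := heckeNorm_eq M ℓ (u : FN M)
  rw [MonoidHom.coe_coe] at h2
  rw [e]
  exact h2

/-- `heckeNorm` of a constant. -/
theorem heckeNorm_algebraMap (M ℓ : ℕ) [NeZero M] [NeZero ℓ] (hℓ : ℓ.Prime) (hℓM : ¬ ℓ ∣ M)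
    (c : Kbar) : heckeNorm Kbar M ℓ (algebraMap Kbar (FN M) c) = algebraMap Kbar (FN M) (c ^ (ℓ + 1)) := by
  rw [heckeNorm_eq, AlgHom.commutes, normAlong_algebraMap, finrankAlong_alpha M ℓ hℓ hℓM]

/-- `heckeNorm` commutes with the coefficientwise Galois action. -/
theorem heckeNorm_galois (M ℓ : ℕ) [NeZero M] [NeZero ℓ] (hℓ : ℓ.Prime) (hℓM : ¬ ℓ ∣ M)
    (σ : Kbar ≃ₐ[ℚ] Kbar) (f : FN M) :
    heckeNorm Kbar M ℓ (arithmeticRingAut (modularFunctionFieldFull M) σ f) =
      arithmeticRingAut (modularFunctionFieldFull M) σ (heckeNorm Kbar M ℓ f) := by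
  obtain ⟨ζ₀, hζ₀⟩ : ∃ ζ : Kbar, IsPrimitiveRoot ζ ℓ :=
    HasEnoughRootsOfUnity.exists_primitiveRoot Kbar ℓ
  let ζ : Kbarˣ := hζ₀.isUnit hℓ.ne_zero |>.unit
  have hζ : IsPrimitiveRoot ζ ℓ := IsPrimitiveRoot.coe_units_iff.mp hζ₀
  have hζσ : IsPrimitiveRoot (Units.map ((σ : Kbar →+* Kbar) : Kbar →* Kbar) ζ) ℓ := by
    apply IsPrimitiveRoot.coe_units_iff.mp
    exact hζ₀.map_of_injective (f := (σ : Kbar →+* Kbar)) σ.injective
  apply Subtype.ext
  apply qExpand_injective (R := Kbar) (N := ℓ)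
  have hR : qExpand Kbar ℓ (coeffMap (σ : Kbar →+* Kbar)
      ((heckeNorm Kbar M ℓ f : FN M) : LaurentSeries Kbar)) =
      qExpand Kbar ℓ (qExpand Kbar ℓ (coeffMap (σ : Kbar →+* Kbar) (f : LaurentSeries Kbar))) *
        ∏ i ∈ Finset.range ℓ, S28.twist ((Units.map ((σ : Kbar →+* Kbar) : Kbar →* Kbar) ζ) ^ i)
          (coeffMap (σ : Kbar →+* Kbar) (f : LaurentSeries Kbar)) := by
    rw [← coeffMap_qExpand, qExpand_heckeNorm M ℓ hℓ hℓM ζ hζ, map_mul, map_prod, coeffMap_qExpand,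
      coeffMap_qExpand]
    congr 1
    refine Finset.prod_congr rfl fun i _ => ?_
    rw [coeffMap_twist, map_pow]
  rw [qExpand_heckeNorm M ℓ hℓ hℓM _ hζσ, coe_arithmeticRingAut_apply, coe_arithmeticRingAut_apply,
    hR]

end Fermat.Agent.GAL.Hecke
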