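import Mathlib
import Fermat.Agent.GAL.Model
import Fermat.Agent.GAL.Hecke.AtkinLehner
import Fermat.Agent.GAL.Hecke.DegreeAlpha

set_option autoImplicit false
set_option linter.style.haveILetI false
set_option linter.unusedSectionVars false

/-!
# The norm formula for the multiplicative Hecke operator

`(H-star)`: for a prime `ℓ ∤ M`, `ζ` a primitive `ℓ`-th root of unity and `f ∈ FN M`,
`(Norm_α (β f))(q^ℓ) = f(q^(ℓ²)) * ∏_{i < ℓ} f(ζ^i q)`.
-/

open ModularCurve AlgebraicCurve IntermediateField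

noncomputable section

namespace Fermat.Agent.GAL.NormFormula

open Fermat.Agent.S24 Fermat.Agent.GAL.AtkinLehner Fermat.Agent.GAL.DegreeAlpha

/-- If `e i : F' → Ω` (`i : ι`) are `[F' : F]` distinct embeddings extending `ψ : F → Ω`, then
`ψ (Norm x) = ∏ i, e i x`. -/
theorem norm_eq_prod_of_embeddings {F F' Ω ι : Type*} [Field F] [Field F'] [Field Ω] [Fintype ι]
    [CharZero F] [Algebra F F'] [FiniteDimensional F F']
    (ψ : F →+* Ω) (e : ι → F' →+* Ω) (he : ∀ i x, e i (algebraMap F F' x) = ψ x)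
    (hinj : Function.Injective e) (hcard : Fintype.card ι = Module.finrank F F') (x : F') :
    ψ (Algebra.norm F x) = ∏ i, e i x := by
  classical
  let E := AlgebraicClosure Ω
  letI : Algebra F E := ((algebraMap Ω E).comp ψ).toAlgebra
  let e' : ι → (F' →ₐ[F] E) := fun i =>
    { ((algebraMap Ω E).comp (e i)) with
      commutes' := fun y => by
        show algebraMap Ω E (e i (algebraMap F F' y)) = algebraMap Ω E (ψ y)
        rw [he] }
  have hinj' : Function.Injective e' := by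
    intro i k h
    apply hinj
    ext y
    have := congrArg (fun g : F' →ₐ[F] E => g y) h
    exact (algebraMap Ω E).injective this
  have hbij : Function.Bijective e' := by
    rw [Fintype.bijective_iff_injective_and_card]
    refine ⟨hinj', ?_⟩
    rw [hcard, AlgHom.card]
  have h1 := Algebra.norm_eq_prod_embeddings F E x
  rw [← Fintype.prod_bijective e' hbij (fun i => e' i x) (fun σ => σ x) (fun _ => rfl)] at h1
  apply (algebraMap Ω E).injective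
  rw [map_prod]
  exact h1

/-- `twist c` fixes series in `q^ℓ` when `c^ℓ = 1`. -/
theorem twist_qExpand {L : Type*} [Field L] (ℓ : ℕ) [NeZero ℓ] {c : L} (hc : c ≠ 0)
    (hcℓ : c ^ ℓ = 1) (x : LaurentSeries L) :
    Fermat.Agent.S24.twist c hc (qExpand L ℓ x) = qExpand L ℓ x := by
  ext n
  rw [twist_coeff]
  by_cases hn : (ℓ : ℤ) ∣ n
  · obtain ⟨m, rfl⟩ := hn
    rw [zpow_mul, zpow_natCast, hcℓ, one_zpow, one_mul]
  · rw [qExpand_coeff_of_not_dvd ℓ _ hn, mul_zero]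

section Main

variable {M ℓ : ℕ} [NeZero M] [NeZero ℓ]

/-- the inclusion of the function field in the field of Laurent series. -/
def valN (N : ℕ) : FN N →+* LaurentSeries Kbar := (modularFunctionFieldBar N).val

theorem valN_apply (N : ℕ) (x : FN N) : valN N x = (x : LaurentSeries Kbar) := rfl

/-- The `ℓ + 1` embeddings of `FN (M ℓ)` in `Kbar((q))` over `f ↦ f(q^ℓ)`. -/
def emb (w : FN (M * ℓ) →ₐ[Kbar] FN (M * ℓ)) {ζ : Kbar} (hζ0 : ζ ≠ 0) :
    Option (Fin ℓ) → FN (M * ℓ) →+* LaurentSeries Kbar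
  | none => (qExpand Kbar ℓ).comp (valN (M * ℓ))
  | some i => (Fermat.Agent.S24.twist (ζ ^ (i : ℕ)) (pow_ne_zero _ hζ0)).comp
      ((valN (M * ℓ)).comp (w : FN (M * ℓ) →+* FN (M * ℓ)))

theorem emb_none (w : FN (M * ℓ) →ₐ[Kbar] FN (M * ℓ)) {ζ : Kbar} (hζ0 : ζ ≠ 0) (x : FN (M * ℓ)) :
    emb (M := M) w hζ0 none x = qExpand Kbar ℓ (x : LaurentSeries Kbar) := rfl

theorem emb_some (w : FN (M * ℓ) →ₐ[Kbar] FN (M * ℓ)) {ζ : Kbar} (hζ0 : ζ ≠ 0) (i : Fin ℓ)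
    (x : FN (M * ℓ)) :
    emb (M := M) w hζ0 (some i) x = Fermat.Agent.S24.twist (ζ ^ (i : ℕ)) (pow_ne_zero _ hζ0)
      ((w x : FN (M * ℓ)) : LaurentSeries Kbar) := rfl

theorem coeff_jK_neg_one : (coeffEmb Kbar jq).coeff (-1) = 1 := by
  rw [coeffEmb, coeffMap_coeff, coeff_jq_neg_one, map_one]

theorem coe_jF (N : ℕ) : ((jF N : FN N) : LaurentSeries Kbar) = coeffEmb Kbar jq := rfl

theorem emb_injective (hℓ : ℓ.Prime) (w : FN (M * ℓ) →ₐ[Kbar] FN (M * ℓ))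
    (hwβ : w.comp (heckeBetaBar Kbar M ℓ) = heckeAlphaBar Kbar M ℓ)
    {ζ : Kbar} (hζ : IsPrimitiveRoot ζ ℓ) :
    Function.Injective (emb (M := M) w (hζ.ne_zero hℓ.ne_zero)) := by
  have hζ0 := hζ.ne_zero hℓ.ne_zero
  -- values at `β j`
  have hnone : (emb (M := M) w hζ0 none (heckeBetaBar Kbar M ℓ (jF M))).coeff (-1) = 0 := by
    rw [emb_none]
    refine qExpand_coeff_of_not_dvd ℓ _ ?_
    intro h
    have h1 : (ℓ : ℤ) ∣ 1 := (dvd_neg).mp h
    have h2 : ℓ ∣ 1 := by exact_mod_cast h1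
    exact hℓ.one_lt.ne' (Nat.dvd_one.mp h2)
  have hsome : ∀ i : Fin ℓ,
      (emb (M := M) w hζ0 (some i) (heckeBetaBar Kbar M ℓ (jF M))).coeff (-1) =
        (ζ ^ (i : ℕ))⁻¹ := by
    intro i
    have h1 : w (heckeBetaBar Kbar M ℓ (jF M)) = heckeAlphaBar Kbar M ℓ (jF M) :=
      congrArg (fun g : FN M →ₐ[Kbar] FN (M * ℓ) => g (jF M)) hwβ
    rw [emb_some, h1, twist_coeff, coe_heckeAlphaBar, coe_jF, coeff_jK_neg_one, mul_one,
      zpow_neg_one]
  intro a b hab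
  have hab' : (emb (M := M) w hζ0 a (heckeBetaBar Kbar M ℓ (jF M))).coeff (-1) =
      (emb (M := M) w hζ0 b (heckeBetaBar Kbar M ℓ (jF M))).coeff (-1) := by rw [hab]
  rcases a with _ | i <;> rcases b with _ | k
  · rfl
  · rw [hnone, hsome] at hab'
    exact absurd hab'.symm (inv_ne_zero (pow_ne_zero _ hζ0))
  · rw [hnone, hsome] at hab'
    exact absurd hab' (inv_ne_zero (pow_ne_zero _ hζ0))
  · rw [hsome, hsome, inv_inj] at hab'
    have := hζ.pow_inj i.2 k.2 hab'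
    rw [Fin.ext this]

theorem emb_alpha (hℓ : ℓ.Prime) (w : FN (M * ℓ) →ₐ[Kbar] FN (M * ℓ))
    (hwα : w.comp (heckeAlphaBar Kbar M ℓ) = heckeBetaBar Kbar M ℓ)
    {ζ : Kbar} (hζ : IsPrimitiveRoot ζ ℓ) (o : Option (Fin ℓ)) (x : FN M) :
    emb (M := M) w (hζ.ne_zero hℓ.ne_zero) o (heckeAlphaBar Kbar M ℓ x) =
      qExpand Kbar ℓ (x : LaurentSeries Kbar) := by
  rcases o with _ | i
  · rw [emb_none, coe_heckeAlphaBar]
  · have h1 : w (heckeAlphaBar Kbar M ℓ x) = heckeBetaBar Kbar M ℓ x :=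
      congrArg (fun g : FN M →ₐ[Kbar] FN (M * ℓ) => g x) hwα
    rw [emb_some, h1, coe_heckeBetaBar, twist_qExpand ℓ _ (by rw [← pow_mul, mul_comm, pow_mul,
      hζ.pow_eq_one, one_pow])]

theorem emb_some_beta (w : FN (M * ℓ) →ₐ[Kbar] FN (M * ℓ))
    (hwβ : w.comp (heckeBetaBar Kbar M ℓ) = heckeAlphaBar Kbar M ℓ)
    {ζ : Kbar} (hζ0 : ζ ≠ 0) (i : Fin ℓ) (x : FN M) :
    emb (M := M) w hζ0 (some i) (heckeBetaBar Kbar M ℓ x) =
      Fermat.Agent.S24.twist (ζ ^ (i : ℕ)) (pow_ne_zero _ hζ0) (x : LaurentSeries Kbar) := by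
  have h1 : w (heckeBetaBar Kbar M ℓ x) = heckeAlphaBar Kbar M ℓ x :=
    congrArg (fun g : FN M →ₐ[Kbar] FN (M * ℓ) => g x) hwβ
  rw [emb_some, h1, coe_heckeAlphaBar]

theorem heckeNorm_apply (f : FN M) :
    heckeNorm Kbar M ℓ f =
      @Algebra.norm (FN M) (FN (M * ℓ)) _ _ (algebraAlong (heckeAlphaBar Kbar M ℓ))
        (heckeBetaBar Kbar M ℓ f) := rfl

/-- **The norm formula** `(H-star)`. -/
theorem qExpand_heckeNorm (hℓ : ℓ.Prime) (hM : ¬ ℓ ∣ M) {ζ : Kbar} (hζ : IsPrimitiveRoot ζ ℓ)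
    (f : FN M) :
    qExpand Kbar ℓ ((heckeNorm Kbar M ℓ f : FN M) : LaurentSeries Kbar) =
      qExpand Kbar ℓ (qExpand Kbar ℓ (f : LaurentSeries Kbar)) *
        ∏ i : Fin ℓ, Fermat.Agent.S24.twist (ζ ^ (i : ℕ))
          (pow_ne_zero _ (hζ.ne_zero hℓ.ne_zero)) (f : LaurentSeries Kbar) := by
  obtain ⟨w, hwα, hwβ, -⟩ := exists_atkinLehner M ℓ hℓ hM
  have hζ0 := hζ.ne_zero hℓ.ne_zero
  have key := @norm_eq_prod_of_embeddings (FN M) (FN (M * ℓ)) (LaurentSeries Kbar)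
    (Option (Fin ℓ)) _ _ _ _ _ (algebraAlong (heckeAlphaBar Kbar M ℓ))
    (finiteDimensional_alpha M ℓ hℓ hM)
    ((qExpand Kbar ℓ).comp (valN M)) (emb (M := M) w hζ0)
    (fun o x => emb_alpha hℓ w hwα hζ o x) (emb_injective hℓ w hwβ hζ)
    (by rw [Fintype.card_option, Fintype.card_fin, finrank_alpha M ℓ hℓ hM])
    (heckeBetaBar Kbar M ℓ f)
  rw [Fintype.prod_option, emb_none, coe_heckeBetaBar, ← heckeNorm_apply] at key
  rw [← Finset.prod_congr rfl (fun i _ => emb_some_beta w hwβ hζ0 i f)]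
  exact key

/-- The norm formula, second form. -/
theorem qExpand_heckeNorm' (hℓ : ℓ.Prime) (hM : ¬ ℓ ∣ M) {ζ : Kbar} (hζ : IsPrimitiveRoot ζ ℓ)
    (f : FN M) :
    qExpand Kbar ℓ ((heckeNorm Kbar M ℓ f : FN M) : LaurentSeries Kbar) =
      qExpand Kbar (ℓ * ℓ) (f : LaurentSeries Kbar) *
        ∏ i : Fin ℓ, Fermat.Agent.S24.twist (ζ ^ (i : ℕ))
          (pow_ne_zero _ (hζ.ne_zero hℓ.ne_zero)) (f : LaurentSeries Kbar) := by
  rw [qExpand_heckeNorm hℓ hM hζ, qExpand_qExpand]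

end Main

end Fermat.Agent.GAL.NormFormula
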