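import Mathlib

set_option autoImplicit false
set_option linter.style.haveILetI false

/-!
# GAL-HECKE : the norm as a product over a full set of embeddings (task H3)
-/

namespace Fermat.Agent.GAL.Hecke

/-- If `e i : F' → Ω` (`i : ι`) are `[F' : F]` pairwise distinct embeddings restricting to the same
`i₀ : F → Ω`, then `i₀ (N_{F'/F} x) = ∏ i, e i x`. -/
theorem norm_eq_prod_of_ringHoms {F F' Ω ι : Type*} [Field F] [Field F'] [Field Ω] [Algebra F F']
    [FiniteDimensional F F'] [Algebra.IsSeparable F F'] [Fintype ι]
    (i₀ : F →+* Ω) (e : ι → F' →+* Ω) (hcomp : ∀ i, (e i).comp (algebraMap F F') = i₀)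
    (he : Function.Injective e) (hcard : Fintype.card ι = Module.finrank F F') (x : F') :
    i₀ (Algebra.norm F x) = ∏ i, e i x := by
  classical
  let E := AlgebraicClosure Ω
  letI : Algebra F E := ((algebraMap Ω E).comp i₀).toAlgebra
  let e' : ι → (F' →ₐ[F] E) := fun i =>
    { ((algebraMap Ω E).comp (e i)) with
      commutes' := fun y => by
        show algebraMap Ω E (e i (algebraMap F F' y)) = algebraMap Ω E (i₀ y)
        rw [← hcomp i]
        rfl }
  have hinj' : Function.Injective e' := by
    intro i k h
    apply he
    ext y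
    have := congrArg (fun g : F' →ₐ[F] E => g y) h
    exact (algebraMap Ω E).injective this
  have hbij : Function.Bijective e' := by
    rw [Fintype.bijective_iff_injective_and_card]
    refine ⟨hinj', ?_⟩
    rw [hcard, AlgHom.card]
  have h1 := Algebra.norm_eq_prod_embeddings F E x
  rw [← Fintype.prod_bijective e' hbij (fun i => e' i x) (fun σ => σ x) (fun _ => rfl)] at h1
  apply (algebraMap Ω E).injective
  rw [map_prod]
  exact h1

end Fermat.Agent.GAL.Hecke
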