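import Fermat.Agent.GAL.Hecke.Degree
import Fermat.Agent.GAL.Hecke.NormAbs
import Fermat.Agent.GAL.Hecke.SeriesRed
import Fermat.Agent.GAL.Hecke.NormFormulaCore

set_option autoImplicit false

/-!
# GAL-HECKE : the `q`-expansion of `heckeNorm` (task H9)
-/

noncomputable section

namespace Fermat.Agent.GAL.Hecke

open AlgebraicCurve ModularCurve Fermat.Agent.S24

/-- The two versions of `twist` agree. -/
theorem S28_twist_eq {L : Type*} [Field L] (c : Lˣ) (x : LaurentSeries L) :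
    S28.twist c x = Fermat.Agent.S24.twist (c : L) c.ne_zero x := by
  ext n
  rw [S28.twist_coeff, Fermat.Agent.S24.twist_coeff, Units.val_zpow_eq_zpow_val]

/-- **(H-star)**  `(N_ℓ f)(q^ℓ) = f(q^{ℓ²}) ∏_{i<ℓ} f(ζ^i q)`, i.e.
`N_ℓ f (τ) = f(ℓτ) ∏_i f((τ+i)/ℓ)`. -/
theorem qExpand_heckeNorm (M ℓ : ℕ) [NeZero M] [NeZero ℓ] (hℓ : ℓ.Prime) (hℓM : ¬ ℓ ∣ M)
    (ζ : Kbarˣ) (hζ : IsPrimitiveRoot ζ ℓ) (f : FN M) :
    qExpand Kbar ℓ ((heckeNorm Kbar M ℓ f : FN M) : LaurentSeries Kbar) =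
      qExpand Kbar ℓ (qExpand Kbar ℓ (f : LaurentSeries Kbar)) *
        ∏ i ∈ Finset.range ℓ, S28.twist (ζ ^ i) (f : LaurentSeries Kbar) := by
  have hζ' : IsPrimitiveRoot (ζ : Kbar) ℓ := IsPrimitiveRoot.coe_units_iff.mpr hζ
  rw [NormFormula.qExpand_heckeNorm hℓ hℓM hζ' f, ← Fin.prod_univ_eq_prod_range]
  congr 1
  refine Finset.prod_congr rfl fun i _ => ?_
  rw [S28_twist_eq]
  congr 1

end Fermat.Agent.GAL.Hecke
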